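import Fermat.Agent.S14.Thaine.Units.UPrime
import Fermat.Agent.S14.Thaine.CycloU.Eigen

/-!
# Route T, block `Units`: the unit `u'` is an `ω²`-eigenvector modulo `p`-th powers of units

Statements FROZEN by helper276 (replace each `sorry` only; add helper lemmas freely).
-/

set_option autoImplicit false

namespace Fermat.Agent.S14.Thaine.Units

open NumberField

variable (p : ℕ) [Fact p.Prime] (K : Type*) [Field K] [NumberField K]
  [IsCyclotomicExtension {p} ℚ K]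

/-- An element of a number field whose `q`-th power (`0 < q`) is the image of a unit of the ring
of integers is itself the image of a unit of the ring of integers. -/
theorem uPrime_eigen_aux_exists_unit_of_pow {F : Type*} [Field F] [NumberField F] {q : ℕ}
    (hq : 0 < q) (t : F) (u : (𝓞 F)ˣ) (ht : t ^ q = ((u : 𝓞 F) : F)) :
    ∃ w : (𝓞 F)ˣ, ((w : 𝓞 F) : F) = t := by
  have hint : IsIntegral ℤ t := by
    refine IsIntegral.of_pow hq ?_
    rw [ht]
    exact RingOfIntegers.isIntegral_coe (u : 𝓞 F)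
  let x : 𝓞 F := ⟨t, hint⟩
  have hx : (x : F) = t := rfl
  have hxu : x ^ q = (u : 𝓞 F) := by
    apply RingOfIntegers.ext
    rw [← ht, ← hx]
    exact map_pow (algebraMap (𝓞 F) F) x q
  have hunit : IsUnit x := by
    have h1 : IsUnit (x ^ q) := by rw [hxu]; exact u.isUnit
    exact (isUnit_pow_iff hq.ne').mp h1
  obtain ⟨w, hw⟩ := hunit
  exact ⟨w, by rw [hw, hx]⟩

theorem uPrime_eigen (hp5 : 5 ≤ p) (σ : K ≃ₐ[ℚ] K) :
    ∃ w : (𝓞 K)ˣ, σ ((uPrime p K : 𝓞 K) : K) =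
      ((uPrime p K : 𝓞 K) : K) ^ sqExp p K σ * ((w : 𝓞 K) : K) ^ p := by
  obtain ⟨S, T, ⟨nS, hS⟩, -, hST⟩ := CycloU.thaineU_eigen (p := p) K σ
  obtain ⟨M, hM⟩ := p_dvd_expSum p hp5
  have hp : 0 < p := (Fact.out : p.Prime).pos
  set s : ℕ := sqExp p K σ with hs
  -- the unit `u'`
  set U' : (𝓞 K)ˣ := (isUnit_uPrime p K).unit with hU'
  have hU'val : (U' : 𝓞 K) = uPrime p K := IsUnit.unit_spec _
  rw [← hU'val]
  set e : K := ((U' : 𝓞 K) : K) with he
  set π : K := ((piInt p K : 𝓞 K) : K) with hπ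
  set SK : K := ((S : 𝓞 K) : K) with hSK
  set TK : K := ((T : 𝓞 K) : K) with hTK
  -- nonvanishing
  have hπ0 : π ≠ 0 := by
    rw [hπ]
    exact fun h => (piInt_prime p K).ne_zero (RingOfIntegers.coe_eq_zero_iff.mp h)
  have hσπ0 : σ π ≠ 0 := fun h => hπ0 ((map_eq_zero σ).mp h)
  have hS0 : SK ≠ 0 := by
    rw [hSK]
    intro h
    have hS0' : S = 0 := RingOfIntegers.coe_eq_zero_iff.mp h
    have hp0 : ((p : ℕ) : 𝓞 K) ^ nS ≠ 0 :=
      pow_ne_zero nS (Nat.cast_ne_zero.mpr (Fact.out : p.Prime).ne_zero)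
    exact ne_zero_of_dvd_ne_zero hp0 hS hS0'
  -- `u = π ^ (p * M) * u'` in `K`
  have huK : ((thaineU p K : 𝓞 K) : K) = π ^ (p * M) * e := by
    rw [thaineU_eq, hM, ← hU'val, he, hπ]
    simp only [RingOfIntegers.coe_eq_algebraMap, map_mul, map_pow]
  rw [huK, map_mul, map_pow] at hST
  -- the candidate `ρ`
  set ρ : K := π ^ (M * s) * TK / (σ π ^ M * SK) with hρ
  have hkey : σ e = e ^ s * ρ ^ p := by
    have h1 : σ e * (σ π ^ M * SK) ^ p = e ^ s * (π ^ (M * s) * TK) ^ p := by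
      linear_combination hST
    rw [hρ, div_pow, mul_div_assoc',
      eq_div_iff (pow_ne_zero p (mul_ne_zero (pow_ne_zero M hσπ0) hS0))]
    exact h1
  -- `ρ ^ p` is the image of a unit
  have hσe : (((galU K σ U' : (𝓞 K)ˣ) : 𝓞 K) : K) = σ e := coe_galU K σ U'
  have htp : ρ ^ p = (((galU K σ U' * (U' ^ s)⁻¹ : (𝓞 K)ˣ) : 𝓞 K) : K) := by
    have h2 : ((((U' ^ s)⁻¹ : (𝓞 K)ˣ) : 𝓞 K) : K) = (e ^ s)⁻¹ := by
      apply eq_inv_of_mul_eq_one_left
      rw [he]
      simp only [RingOfIntegers.coe_eq_algebraMap]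
      rw [← map_pow, ← map_mul, ← Units.val_pow_eq_pow_val, ← Units.val_mul,
        inv_mul_cancel, Units.val_one, map_one]
    have he0 : e ≠ 0 := by
      rw [he]
      exact fun h => U'.ne_zero (RingOfIntegers.coe_eq_zero_iff.mp h)
    have h3 : (((galU K σ U' * (U' ^ s)⁻¹ : (𝓞 K)ˣ) : 𝓞 K) : K) = σ e * (e ^ s)⁻¹ := by
      rw [← h2, ← hσe, Units.val_mul]
      simp only [RingOfIntegers.coe_eq_algebraMap, map_mul]
    rw [h3, hkey]
    field_simp
  obtain ⟨w, hw⟩ := uPrime_eigen_aux_exists_unit_of_pow hp ρ _ htp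
  exact ⟨w, by rw [hw]; exact hkey⟩

end Fermat.Agent.S14.Thaine.Units
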