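import Fermat.Agent.S14.Thaine.Units.Defs

/-!
# Route T, block `Units`: the roots of unity of `ℚ(ζ_p)` are `±ζ^i = (±1)^p ζ^i`

Statements FROZEN by helper276 (replace each `sorry` only; add helper lemmas freely).
-/

set_option autoImplicit false

namespace Fermat.Agent.S14.Thaine.Units

open NumberField

variable (p : ℕ) [Fact p.Prime] (K : Type*) [Field K] [NumberField K]
  [IsCyclotomicExtension {p} ℚ K]

theorem torsion_eq_pow_mul_zeta (hp3 : 3 ≤ p) (t : (𝓞 K)ˣ) (ht : t ∈ NumberField.Units.torsion K) :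
    ∃ (s : (𝓞 K)ˣ) (i : ℕ), (t : 𝓞 K) = (s : 𝓞 K) ^ p * zetaInt p K ^ i := by
  have hpodd : Odd p := (Fact.out : p.Prime).odd_of_ne_two (by omega)
  have hζ : IsPrimitiveRoot (IsCyclotomicExtension.zeta p ℚ K) p :=
    IsCyclotomicExtension.zeta_spec p ℚ K
  have hfin : IsOfFinOrder t := by
    rwa [NumberField.Units.torsion, CommGroup.mem_torsion] at ht
  have hx : IsOfFinOrder (((t : 𝓞 K) : K)) := by
    obtain ⟨n, hn, htn⟩ := isOfFinOrder_iff_pow_eq_one.1 hfin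
    refine isOfFinOrder_iff_pow_eq_one.2 ⟨n, hn, ?_⟩
    have h1 : ((t ^ n : (𝓞 K)ˣ) : 𝓞 K) = 1 := by rw [htn]; rfl
    have h2 : (((t ^ n : (𝓞 K)ˣ) : 𝓞 K) : K) = 1 := by rw [h1]; rfl
    rw [← h2]
    simp
  have hzcoe : ((zetaInt p K : 𝓞 K) : K) = IsCyclotomicExtension.zeta p ℚ K := rfl
  obtain ⟨r, -, hr | hr⟩ := hζ.exists_pow_or_neg_mul_pow_of_isOfFinOrder hpodd hx
  · refine ⟨1, r, ?_⟩
    apply RingOfIntegers.ext
    rw [Units.val_one, one_pow, one_mul, hr, ← hzcoe]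
    push_cast
    rfl
  · refine ⟨-1, r, ?_⟩
    apply RingOfIntegers.ext
    rw [Units.val_neg, Units.val_one, hpodd.neg_one_pow, neg_one_mul, hr, ← hzcoe]
    push_cast
    rfl

end Fermat.Agent.S14.Thaine.Units
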