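import Fermat.Agent.S14.Thaine.Units.UPrime
import Fermat.Agent.S14.Thaine.Units.Torsion

/-!
# Route T, block `Units`: the final local computation of `unit_step`

Statements FROZEN by helper276 (replace each `sorry` only; add helper lemmas freely).
-/

set_option autoImplicit false

namespace Fermat.Agent.S14.Thaine.Units

open NumberField

variable (p : ℕ) [Fact p.Prime] (K : Type*) [Field K] [NumberField K]
  [IsCyclotomicExtension {p} ℚ K]

/-- `24` is invertible modulo a prime `p ≥ 5`. -/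
theorem stepAB_twentyfour_ne_zero (hp5 : 5 ≤ p) : (24 : ZMod p) ≠ 0 := by
  have hp : p.Prime := Fact.out
  intro h24
  have h24' : ((24 : ℕ) : ZMod p) = 0 := by exact_mod_cast h24
  rw [ZMod.natCast_eq_zero_iff] at h24'
  have h24'' : p ∣ 2 ^ 3 * 3 := by
    have : (2 : ℕ) ^ 3 * 3 = 24 := by norm_num
    rw [this]
    exact h24'
  rcases (Nat.Prime.dvd_mul hp).mp h24'' with h2 | h3
  · have h2' : p ∣ 2 := hp.dvd_of_dvd_pow h2
    have := Nat.le_of_dvd (by norm_num) h2'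
    omega
  · have := Nat.le_of_dvd (by norm_num) h3
    omega

/-- `ζ ^ p = 1`. -/
theorem stepAB_zetaInt_pow_p : zetaInt p K ^ p = 1 := by
  have : NeZero p := ⟨(Fact.out : p.Prime).ne_zero⟩
  exact (IsCyclotomicExtension.zeta_spec p ℚ K).toInteger_isPrimitiveRoot.pow_eq_one

/-- If `ε = u'^k w^p t` (`t` a root of unity) and `ε ≡ n (mod π³)`, then `ε` is a `p`-th power. -/
theorem pow_of_decomp (hp5 : 5 ≤ p) (ε : (𝓞 K)ˣ) (n : ℤ)
    (hloc : (ε : 𝓞 K) - (n : 𝓞 K) ∈ Ideal.span {piInt p K ^ 3})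
    (k : ℕ) (w t : (𝓞 K)ˣ) (ht : t ∈ NumberField.Units.torsion K)
    (h : (ε : 𝓞 K) = uPrime p K ^ k * (w : 𝓞 K) ^ p * (t : 𝓞 K)) :
    ∃ w' : (𝓞 K)ˣ, ε = w' ^ p := by
  have hp : p.Prime := Fact.out
  obtain ⟨s, i, hts⟩ := torsion_eq_pow_mul_zeta p K (by omega) t ht
  -- `ε = u'^k * ζ^i * (w s)^p`
  have hε : (ε : 𝓞 K) =
      uPrime p K ^ k * zetaInt p K ^ i * ((w : 𝓞 K) * (s : 𝓞 K)) ^ p := by
    rw [h, hts]
    ring
  -- the invariants of the four pieces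
  have h1 : AB p K (ε : 𝓞 K) 0 0 := AB_of_int p K hp5 ε.isUnit n hloc
  have h2 : AB p K (uPrime p K ^ k) ((k : ZMod p) * 0) ((k : ZMod p) * (-1 / 24)) :=
    AB_pow p K hp5 (AB_uPrime p K hp5) k
  have h3 : AB p K (zetaInt p K ^ i) (-(i : ZMod p)) (-(i : ZMod p) / 2) :=
    AB_zeta_pow p K hp5 i
  have hws : IsUnit ((w : 𝓞 K) * (s : 𝓞 K)) := (w * s).isUnit
  have h4 : AB p K (((w : 𝓞 K) * (s : 𝓞 K)) ^ p) 0 0 :=
    AB_pow_p p K hp5 _ (piInt_not_dvd_of_isUnit p K hws)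
  have h5 := AB_mul p K hp5 (AB_mul p K hp5 h2 h3) h4
  rw [← hε] at h5
  obtain ⟨ha, hb⟩ := AB_unique p K hp5 h1 h5
  -- `i ≡ 0 (mod p)`
  have hi : (i : ZMod p) = 0 := by
    have h0 : (0 : ZMod p) = -(i : ZMod p) := by
      rw [ha]
      ring
    exact neg_eq_zero.mp h0.symm
  -- `k ≡ 0 (mod p)`
  have h24 : (24 : ZMod p) ≠ 0 := stepAB_twentyfour_ne_zero p hp5
  have hk : (k : ZMod p) = 0 := by
    have h0 : (0 : ZMod p) = (k : ZMod p) * (-1 / 24) := by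
      rw [hb, hi]
      ring
    have h1' : (k : ZMod p) = (k : ZMod p) * (-1 / 24) * (-24) := by
      field_simp
    rw [h1', ← h0, zero_mul]
  obtain ⟨i', rfl⟩ : p ∣ i := (ZMod.natCast_eq_zero_iff i p).mp hi
  obtain ⟨k', rfl⟩ : p ∣ k := (ZMod.natCast_eq_zero_iff k p).mp hk
  have hζ : zetaInt p K ^ (p * i') = 1 := by
    rw [pow_mul, stepAB_zetaInt_pow_p, one_pow]
  refine ⟨(isUnit_uPrime p K).unit ^ k' * w * s, ?_⟩
  apply Units.ext
  rw [hε, hζ, Units.val_pow_eq_pow_val, Units.val_mul, Units.val_mul,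
    Units.val_pow_eq_pow_val, IsUnit.unit_spec]
  ring

end Fermat.Agent.S14.Thaine.Units
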