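import Fermat.Agent.S14.Thaine.Units.LemmaX

/-!
# Route T, block `Units`: the pure algebra lemma (multiplicative form, modulo a subgroup `tors`)

Statement of `lemmaX_mul` FROZEN by helper276; proved here (helper352) from `lemmaX`
(file `Units/LemmaX.lean`) applied to `Additive (E ⧸ tors)`.
-/

set_option autoImplicit false

namespace Fermat.Agent.S14.Thaine.Units

/-- Iterates of `MonoidHom.toAdditive T` are the iterates of `T`. -/
theorem transfer_iterate_toAdditive {G : Type*} [CommGroup G] (T : G →* G) (i : ℕ) (x : G) :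
    (⇑(MonoidHom.toAdditive T))^[i] (Additive.ofMul x) = Additive.ofMul ((⇑T)^[i] x) := by
  induction i with
  | zero => rfl
  | succ i ih =>
    rw [Function.iterate_succ_apply', Function.iterate_succ_apply', ih]
    rfl

/-- `lemmaX` for a torsion-free multiplicative commutative group. -/
theorem lemmaX_mulTF {G : Type*} [CommGroup G]
    (htf : ∀ (n : ℕ) (x : G), 0 < n → x ^ n = 1 → x = 1)
    (T : G →* G) (p : ℕ) (hp : p.Prime) (m : ℕ) (hm : 2 ≤ m) (c : ℕ)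
    (hN : ∀ x : G, ∏ i ∈ Finset.range m, (⇑T)^[i] x = 1)
    (v : G)
    (hv : (Subgroup.closure {x : G | ∃ i : ℕ, i < m - 1 ∧ x = (⇑T)^[i] v}).FiniteIndex)
    (hc : ¬ p ^ 2 ∣ ∑ i ∈ Finset.range m, c ^ i)
    (x₁ x₂ : G)
    (h₁ : ∃ y : G, T x₁ = x₁ ^ c * y ^ p)
    (h₂ : ∃ y : G, T x₂ = x₂ ^ c * y ^ p)
    (h₂' : ¬ ∃ y : G, x₂ = y ^ p) :
    ∃ (k : ℤ) (y : G), x₁ = x₂ ^ k * y ^ p := by
  have htf' : ∀ (n : ℕ) (x : Additive G), 0 < n → n • x = 0 → x = 0 := by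
    intro n x hn hx
    have h := htf n (Additive.toMul x) hn (by
      have h' := congrArg Additive.toMul hx
      rw [toMul_nsmul] at h'
      exact h')
    exact Additive.toMul.injective h
  have hN' : ∀ x : Additive G,
      ∑ i ∈ Finset.range m, (⇑(MonoidHom.toAdditive T))^[i] x = 0 := by
    intro x
    obtain ⟨g, rfl⟩ := Additive.ofMul.surjective x
    simp_rw [transfer_iterate_toAdditive]
    rw [← ofMul_prod, hN g]
    rfl
  have hv' : (AddSubgroup.closure {x : Additive G | ∃ i : ℕ, i < m - 1 ∧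
      x = (⇑(MonoidHom.toAdditive T))^[i] (Additive.ofMul v)}).FiniteIndex := by
    have hset : {x : Additive G | ∃ i : ℕ, i < m - 1 ∧
        x = (⇑(MonoidHom.toAdditive T))^[i] (Additive.ofMul v)} =
        Additive.toMul ⁻¹' {x : G | ∃ i : ℕ, i < m - 1 ∧ x = (⇑T)^[i] v} := by
      ext x
      constructor
      · rintro ⟨i, hi, rfl⟩
        refine ⟨i, hi, ?_⟩
        rw [transfer_iterate_toAdditive]
        rfl
      · rintro ⟨i, hi, hx⟩
        refine ⟨i, hi, ?_⟩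
        rw [transfer_iterate_toAdditive, ← hx]
        rfl
    rw [hset, ← Subgroup.toAddSubgroup_closure, AddSubgroup.finiteIndex_iff,
      Subgroup.index_toAddSubgroup]
    exact Subgroup.finiteIndex_iff.mp hv
  have h₁' : ∃ y : Additive G, MonoidHom.toAdditive T (Additive.ofMul x₁) =
      c • Additive.ofMul x₁ + p • y := by
    obtain ⟨y, hy⟩ := h₁
    refine ⟨Additive.ofMul y, ?_⟩
    rw [← ofMul_pow, ← ofMul_pow, ← ofMul_mul, ← hy]
    rfl
  have h₂'' : ∃ y : Additive G, MonoidHom.toAdditive T (Additive.ofMul x₂) =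
      c • Additive.ofMul x₂ + p • y := by
    obtain ⟨y, hy⟩ := h₂
    refine ⟨Additive.ofMul y, ?_⟩
    rw [← ofMul_pow, ← ofMul_pow, ← ofMul_mul, ← hy]
    rfl
  have h₂''' : ¬ ∃ y : Additive G, Additive.ofMul x₂ = p • y := by
    rintro ⟨y, hy⟩
    refine h₂' ⟨Additive.toMul y, ?_⟩
    have h := congrArg Additive.toMul hy
    rw [toMul_nsmul] at h
    exact h
  obtain ⟨k, y, hky⟩ := lemmaX htf' (MonoidHom.toAdditive T) p hp m hm c hN'
    (Additive.ofMul v) hv' hc (Additive.ofMul x₁) (Additive.ofMul x₂) h₁' h₂'' h₂'''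
  refine ⟨k, Additive.toMul y, ?_⟩
  have h := congrArg Additive.toMul hky
  rw [toMul_add, toMul_zsmul, toMul_nsmul] at h
  exact h

theorem lemmaX_mul {E : Type*} [CommGroup E] (tors : Subgroup E)
    (htors : ∀ (e : E) (n : ℕ), 0 < n → e ^ n ∈ tors → e ∈ tors)
    (f : E →* E) (hf : ∀ t ∈ tors, f t ∈ tors)
    (p : ℕ) (hp : p.Prime) (m : ℕ) (hm : 2 ≤ m) (c : ℕ)
    (hN : ∀ e : E, ∏ i ∈ Finset.range m, (⇑f)^[i] e ∈ tors)
    (v : E)
    (hv : (Subgroup.closure {e : E | ∃ i : ℕ, i < m - 1 ∧ e = (⇑f)^[i] v} ⊔ tors).FiniteIndex)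
    (hc : ¬ p ^ 2 ∣ ∑ i ∈ Finset.range m, c ^ i)
    (e₁ e₂ : E)
    (h₁ : ∃ w t : E, t ∈ tors ∧ f e₁ = e₁ ^ c * w ^ p * t)
    (h₂ : ∃ w t : E, t ∈ tors ∧ f e₂ = e₂ ^ c * w ^ p * t)
    (h₂' : ¬ ∃ w t : E, t ∈ tors ∧ e₂ = w ^ p * t) :
    ∃ (k : ℕ) (w t : E), t ∈ tors ∧ e₁ = e₂ ^ k * w ^ p * t := by
  have hmk_surj : Function.Surjective (QuotientGroup.mk' tors) := QuotientGroup.mk'_surjective tors
  have hmk_one : ∀ e : E, QuotientGroup.mk' tors e = 1 ↔ e ∈ tors :=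
    fun e => QuotientGroup.eq_one_iff e
  have hmk_eq : ∀ a b : E, QuotientGroup.mk' tors a = QuotientGroup.mk' tors b →
      a⁻¹ * b ∈ tors := fun a b h => QuotientGroup.eq.mp h
  have hle : tors ≤ tors.comap f := fun t ht => hf t ht
  have hT : ∀ e : E, QuotientGroup.map tors tors f hle (QuotientGroup.mk' tors e) =
      QuotientGroup.mk' tors (f e) := fun e => rfl
  have hTi : ∀ (i : ℕ) (e : E),
      (⇑(QuotientGroup.map tors tors f hle))^[i] (QuotientGroup.mk' tors e) =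
        QuotientGroup.mk' tors ((⇑f)^[i] e) := by
    intro i e
    induction i with
    | zero => rfl
    | succ i ih => rw [Function.iterate_succ_apply', Function.iterate_succ_apply', ih, hT]
  have htf : ∀ (n : ℕ) (x : E ⧸ tors), 0 < n → x ^ n = 1 → x = 1 := by
    intro n x hn hx
    obtain ⟨e, rfl⟩ := hmk_surj x
    rw [← map_pow, hmk_one] at hx
    exact (hmk_one e).mpr (htors e n hn hx)
  have hN' : ∀ x : E ⧸ tors,
      ∏ i ∈ Finset.range m, (⇑(QuotientGroup.map tors tors f hle))^[i] x = 1 := by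
    intro x
    obtain ⟨e, rfl⟩ := hmk_surj x
    simp_rw [hTi]
    rw [← map_prod, hmk_one]
    exact hN e
  have hv' : (Subgroup.closure {x : E ⧸ tors | ∃ i : ℕ, i < m - 1 ∧
      x = (⇑(QuotientGroup.map tors tors f hle))^[i] (QuotientGroup.mk' tors v)}).FiniteIndex := by
    have himg : (Subgroup.closure {e : E | ∃ i : ℕ, i < m - 1 ∧ e = (⇑f)^[i] v} ⊔ tors).map
        (QuotientGroup.mk' tors) = Subgroup.closure {x : E ⧸ tors | ∃ i : ℕ, i < m - 1 ∧
          x = (⇑(QuotientGroup.map tors tors f hle))^[i] (QuotientGroup.mk' tors v)} := by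
      rw [Subgroup.map_sup, MonoidHom.map_closure, QuotientGroup.map_mk'_self, sup_bot_eq]
      congr 1
      ext x
      constructor
      · rintro ⟨e, ⟨i, hi, rfl⟩, rfl⟩
        exact ⟨i, hi, (hTi i v).symm⟩
      · rintro ⟨i, hi, rfl⟩
        exact ⟨(⇑f)^[i] v, ⟨i, hi, rfl⟩, (hTi i v).symm⟩
    rw [← himg, Subgroup.finiteIndex_iff]
    intro h0
    have hdvd := Subgroup.index_map_dvd
      (Subgroup.closure {e : E | ∃ i : ℕ, i < m - 1 ∧ e = (⇑f)^[i] v} ⊔ tors) hmk_surj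
    rw [h0, zero_dvd_iff] at hdvd
    exact Subgroup.finiteIndex_iff.mp hv hdvd
  have h₁' : ∃ y : E ⧸ tors, QuotientGroup.map tors tors f hle (QuotientGroup.mk' tors e₁) =
      (QuotientGroup.mk' tors e₁) ^ c * y ^ p := by
    obtain ⟨w, t, ht, hwt⟩ := h₁
    refine ⟨QuotientGroup.mk' tors w, ?_⟩
    rw [hT, hwt, map_mul, map_mul, map_pow, map_pow, (hmk_one t).mpr ht, mul_one]
  have h₂'' : ∃ y : E ⧸ tors, QuotientGroup.map tors tors f hle (QuotientGroup.mk' tors e₂) =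
      (QuotientGroup.mk' tors e₂) ^ c * y ^ p := by
    obtain ⟨w, t, ht, hwt⟩ := h₂
    refine ⟨QuotientGroup.mk' tors w, ?_⟩
    rw [hT, hwt, map_mul, map_mul, map_pow, map_pow, (hmk_one t).mpr ht, mul_one]
  have h₂''' : ¬ ∃ y : E ⧸ tors, QuotientGroup.mk' tors e₂ = y ^ p := by
    rintro ⟨y, hy⟩
    obtain ⟨w, rfl⟩ := hmk_surj y
    rw [← map_pow] at hy
    refine h₂' ⟨w, (w ^ p)⁻¹ * e₂, hmk_eq _ _ hy.symm, ?_⟩
    rw [mul_inv_cancel_left]
  obtain ⟨k, y, hky⟩ := lemmaX_mulTF htf (QuotientGroup.map tors tors f hle) p hp m hm c hN'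
    (QuotientGroup.mk' tors v) hv' hc (QuotientGroup.mk' tors e₁) (QuotientGroup.mk' tors e₂)
    h₁' h₂'' h₂'''
  obtain ⟨w, rfl⟩ := hmk_surj y
  have hp0 : (p : ℤ) ≠ 0 := by exact_mod_cast hp.ne_zero
  have hr : 0 ≤ k % (p : ℤ) := Int.emod_nonneg k hp0
  have hk : k = ((k % (p : ℤ)).toNat : ℤ) + (k / (p : ℤ)) * (p : ℤ) := by
    rw [Int.toNat_of_nonneg hr, mul_comm]
    exact (Int.emod_add_mul_ediv k p).symm
  have hkey : QuotientGroup.mk' tors e₁ =
      QuotientGroup.mk' tors (e₂ ^ (k % (p : ℤ)).toNat * (e₂ ^ (k / (p : ℤ)) * w) ^ p) := by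
    rw [hky, map_mul, map_pow, map_pow, map_mul, map_zpow, mul_pow, ← mul_assoc]
    congr 1
    conv_lhs => rw [hk]
    rw [zpow_add, zpow_natCast, zpow_mul, zpow_natCast]
  refine ⟨(k % (p : ℤ)).toNat, e₂ ^ (k / (p : ℤ)) * w,
    (e₂ ^ (k % (p : ℤ)).toNat * (e₂ ^ (k / (p : ℤ)) * w) ^ p)⁻¹ * e₁, hmk_eq _ _ hkey.symm, ?_⟩
  rw [mul_inv_cancel_left]

end Fermat.Agent.S14.Thaine.Units
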