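import Fermat.Agent.S14.Thaine.Units.NotPow
import Fermat.Agent.S14.Thaine.Units.StepAB
import Fermat.Agent.S14.Thaine.Units.Eigen
import Fermat.Agent.S14.Thaine.Units.Transfer
import Fermat.Agent.S14.Thaine.Units.Minkowski

/-!
# Route T, block `Units`: `unit_step` for `p ≥ 5`

Statements FROZEN by helper276 (replace each `sorry` only; add helper lemmas freely).
-/

set_option autoImplicit false

namespace Fermat.Agent.S14.Thaine.Units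

open NumberField

/-- First-order binomial expansion modulo `P²`. -/
theorem step_add_pow_succ_expansion (a P : ℤ) (k : ℕ) :
    ∃ t : ℤ, (a + P) ^ (k + 1) = a ^ (k + 1) + ((k : ℤ) + 1) * P * a ^ k + P ^ 2 * t := by
  induction k with
  | zero => exact ⟨0, by simp⟩
  | succ k ih =>
    obtain ⟨t, ht⟩ := ih
    refine ⟨t * a + ((k : ℤ) + 1) * a ^ k + P * t, ?_⟩
    rw [pow_succ, ht]
    push_cast
    ring

/-- Choice of the eigenvalue lift: `c ≡ c₀ (mod p)` with `p² ∤ ∑_{i<m} c^i`. -/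
theorem exists_lift_not_sq_dvd (p : ℕ) (hp : p.Prime) (m : ℕ) (hm0 : 0 < m) (hmp : m < p)
    (c₀ : ℕ) (hc₀ : ¬ p ∣ c₀) :
    ∃ c : ℕ, (c = c₀ ∨ c = c₀ + p) ∧ ¬ p ^ 2 ∣ ∑ i ∈ Finset.range m, c ^ i := by
  by_contra hcon
  have h1 : p ^ 2 ∣ ∑ i ∈ Finset.range m, c₀ ^ i := by
    by_contra h
    exact hcon ⟨c₀, Or.inl rfl, h⟩
  have h2 : p ^ 2 ∣ ∑ i ∈ Finset.range m, (c₀ + p) ^ i := by
    by_contra h
    exact hcon ⟨c₀ + p, Or.inr rfl, h⟩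
  obtain ⟨k, rfl⟩ : ∃ k, m = k + 1 := ⟨m - 1, by omega⟩
  have h1' : ((p : ℤ)) ^ 2 ∣ (c₀ : ℤ) ^ (k + 1) - 1 := by
    have := Int.natCast_dvd_natCast.mpr h1
    push_cast at this
    rw [← mul_geom_sum]
    exact Dvd.dvd.mul_left this _
  have h2' : ((p : ℤ)) ^ 2 ∣ ((c₀ : ℤ) + p) ^ (k + 1) - 1 := by
    have := Int.natCast_dvd_natCast.mpr h2
    push_cast at this
    rw [← mul_geom_sum]
    exact Dvd.dvd.mul_left this _
  obtain ⟨t, ht⟩ := step_add_pow_succ_expansion (c₀ : ℤ) (p : ℤ) k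
  have h3 : ((p : ℤ)) ^ 2 ∣ ((k : ℤ) + 1) * p * (c₀ : ℤ) ^ k := by
    have h4 := dvd_sub h2' h1'
    have h5 : ((c₀ : ℤ) + p) ^ (k + 1) - 1 - ((c₀ : ℤ) ^ (k + 1) - 1) =
        ((k : ℤ) + 1) * p * (c₀ : ℤ) ^ k + (p : ℤ) ^ 2 * t := by
      rw [ht]; ring
    rw [h5] at h4
    exact (dvd_add_left (Dvd.intro _ rfl)).mp h4
  have hp0 : (p : ℤ) ≠ 0 := by exact_mod_cast hp.ne_zero
  have h6 : (p : ℤ) ∣ ((k : ℤ) + 1) * (c₀ : ℤ) ^ k := by
    have : (p : ℤ) * p ∣ p * (((k : ℤ) + 1) * (c₀ : ℤ) ^ k) := by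
      have e : (p : ℤ) * (((k : ℤ) + 1) * (c₀ : ℤ) ^ k) = ((k : ℤ) + 1) * p * (c₀ : ℤ) ^ k := by
        ring
      rw [e, ← sq]
      exact h3
    exact (mul_dvd_mul_iff_left hp0).mp this
  have hpi : Prime (p : ℤ) := Nat.prime_iff_prime_int.mp hp
  rcases hpi.dvd_mul.mp h6 with h | h
  · have : (p : ℤ) ∣ ((k + 1 : ℕ) : ℤ) := by push_cast; exact h
    have := Int.natCast_dvd_natCast.mp this
    have := Nat.le_of_dvd (Nat.succ_pos k) this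
    omega
  · have := hpi.dvd_of_dvd_pow h
    exact hc₀ (Int.natCast_dvd_natCast.mp this)

variable (p : ℕ) [Fact p.Prime] (K : Type*) [Field K] [NumberField K]
  [IsCyclotomicExtension {p} ℚ K]

/-- A prime of `𝓞 K` containing `p` is `(π)`. -/
theorem eq_span_piInt (𝔭 : Ideal (𝓞 K)) (h𝔭 : 𝔭.IsPrime) (hp𝔭 : ((p : ℕ) : 𝓞 K) ∈ 𝔭) :
    𝔭 = Ideal.span {piInt p K} := by
  have : 𝔭.LiesOver (Ideal.span {(p : ℤ)}) := by
    rw [Ideal.liesOver_iff]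
    refine Ideal.IsMaximal.eq_of_le (Int.ideal_span_isMaximal_of_prime p)
      Ideal.IsPrime.ne_top' ?_
    rw [Ideal.span_singleton_le_iff_mem, Ideal.under, Ideal.mem_comap, algebraMap_int_eq,
      map_natCast]
    exact hp𝔭
  have h := IsCyclotomicExtension.Rat.eq_span_zeta_sub_one_of_liesOver' p K
    (IsCyclotomicExtension.zeta_spec p ℚ K) 𝔭
  rw [h]
  unfold piInt zetaInt
  rw [← Ideal.span_singleton_neg, neg_sub]

/-- Every unit in the `ω²`-eigenspace modulo `p`-th powers is `u'^k w^p t` with `t` a root of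
unity. -/
theorem exists_decomp (hp5 : 5 ≤ p) (ε : (𝓞 K)ˣ)
    (heig : ∀ σ : K ≃ₐ[ℚ] K, ∃ w : (𝓞 K)ˣ,
      σ ((ε : 𝓞 K) : K) = ((ε : 𝓞 K) : K) ^ sqExp p K σ * ((w : 𝓞 K) : K) ^ p) :
    ∃ (k : ℕ) (w t : (𝓞 K)ˣ), t ∈ NumberField.Units.torsion K ∧
      (ε : 𝓞 K) = uPrime p K ^ k * (w : 𝓞 K) ^ p * (t : 𝓞 K) := by
  classical
  have hpP : p.Prime := Fact.out
  obtain ⟨γ, hγ⟩ := exists_gal_generator p K
  obtain ⟨u₀, hu₀⟩ := exists_minkowski_unit p K hp5 γ hγ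
  have hm2 : 2 ≤ (p - 1) / 2 := by omega
  have hmp : (p - 1) / 2 < p := by omega
  -- the endomorphism `f = γ` of the unit group
  have hfi : ∀ (i : ℕ) (e : (𝓞 K)ˣ),
      (⇑(galU K γ).toMonoidHom)^[i] e = galU K (γ ^ i) e :=
    fun i e => (galU_pow_apply K γ i e).symm
  -- the exponent
  have hc₀p : ¬ p ∣ sqExp p K γ := by
    intro hdvd
    have h0 : ((chi p K γ) ^ 2).val = 0 := Nat.eq_zero_of_dvd_of_lt hdvd (ZMod.val_lt _)
    have h1 : (chi p K γ) ^ 2 = 0 := (ZMod.val_eq_zero _).mp h0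
    have h2 : chi p K γ = 0 := by simpa using h1
    exact (Units.ne_zero (IsCyclotomicExtension.Rat.galEquivZMod p K γ)) h2
  obtain ⟨c, hc, hcsq⟩ :=
    exists_lift_not_sq_dvd p hpP ((p - 1) / 2) (by omega) hmp (sqExp p K γ) hc₀p
  -- the eigen-property with exponent `c`
  have key : ∀ e : (𝓞 K)ˣ,
      (∃ w : (𝓞 K)ˣ, γ ((e : 𝓞 K) : K) = ((e : 𝓞 K) : K) ^ sqExp p K γ * ((w : 𝓞 K) : K) ^ p) →
      ∃ w t : (𝓞 K)ˣ, t ∈ NumberField.Units.torsion K ∧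
        (galU K γ).toMonoidHom e = e ^ c * w ^ p * t := by
    rintro e ⟨w, hw⟩
    have h1 : (galU K γ).toMonoidHom e = e ^ sqExp p K γ * w ^ p := by
      apply Units.ext
      apply RingOfIntegers.ext
      have h2 : ((((galU K γ).toMonoidHom e : (𝓞 K)ˣ) : 𝓞 K) : K) = γ ((e : 𝓞 K) : K) :=
        coe_galU K γ e
      rw [h2, hw]
      push_cast
      rfl
    rcases hc with rfl | rfl
    · exact ⟨w, 1, one_mem _, by rw [h1, mul_one]⟩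
    · refine ⟨w * e⁻¹, 1, one_mem _, ?_⟩
      rw [h1, mul_one, pow_add, mul_pow, inv_pow]
      rw [mul_assoc, mul_comm (w ^ p) ((e ^ p)⁻¹), ← mul_assoc (e ^ p), mul_inv_cancel, one_mul]
  -- hypotheses of the algebra lemma
  have htors : ∀ (e : (𝓞 K)ˣ) (n : ℕ), 0 < n → e ^ n ∈ NumberField.Units.torsion K →
      e ∈ NumberField.Units.torsion K := by
    intro e n hn he
    exact (CommGroup.mem_torsion _).mpr
      (IsOfFinOrder.of_pow ((CommGroup.mem_torsion _).mp he) hn.ne')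
  have hf : ∀ t ∈ NumberField.Units.torsion K,
      (galU K γ).toMonoidHom t ∈ NumberField.Units.torsion K := by
    intro t ht
    exact (CommGroup.mem_torsion _).mpr
      (MonoidHom.isOfFinOrder _ ((CommGroup.mem_torsion _).mp ht))
  have hN : ∀ e : (𝓞 K)ˣ, ∏ i ∈ Finset.range ((p - 1) / 2),
      (⇑(galU K γ).toMonoidHom)^[i] e ∈ NumberField.Units.torsion K := by
    intro e
    simp_rw [hfi]
    exact norm_mem_torsion p K (by omega) γ hγ e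
  have hv : (Subgroup.closure {e : (𝓞 K)ˣ | ∃ i : ℕ, i < (p - 1) / 2 - 1 ∧
      e = (⇑(galU K γ).toMonoidHom)^[i] u₀} ⊔ NumberField.Units.torsion K).FiniteIndex := by
    have hset : {e : (𝓞 K)ˣ | ∃ i : ℕ, i < (p - 1) / 2 - 1 ∧
        e = (⇑(galU K γ).toMonoidHom)^[i] u₀} =
        {e : (𝓞 K)ˣ | ∃ i : ℕ, i < (p - 1) / 2 - 1 ∧ e = galU K (γ ^ i) u₀} := by
      ext e
      simp only [Set.mem_ofPred_eq, hfi]
    rw [hset]
    have := hu₀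
    exact Subgroup.finiteIndex_of_le le_sup_left
  -- the two eigen-units
  have hu' : (((isUnit_uPrime p K).unit : (𝓞 K)ˣ) : 𝓞 K) = uPrime p K := IsUnit.unit_spec _
  have h₁ := key ε (heig γ)
  have h₂ := key (isUnit_uPrime p K).unit (by rw [hu']; exact uPrime_eigen p K hp5 γ)
  have h₂' : ¬ ∃ w t : (𝓞 K)ˣ, t ∈ NumberField.Units.torsion K ∧
      (isUnit_uPrime p K).unit = w ^ p * t := by
    rintro ⟨w, t, ht, h⟩
    apply uPrime_not_torsion_mul_pow p K hp5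
    refine ⟨w, t, ht, ?_⟩
    have h3 := congrArg (fun x : (𝓞 K)ˣ => (x : 𝓞 K)) h
    simpa [hu'] using h3
  obtain ⟨k, w, t, ht, h⟩ := lemmaX_mul (NumberField.Units.torsion K) htors
    (galU K γ).toMonoidHom hf p hpP ((p - 1) / 2) hm2 c hN u₀ hv hcsq ε
    (isUnit_uPrime p K).unit h₁ h₂ h₂'
  refine ⟨k, w, t, ht, ?_⟩
  have h3 := congrArg (fun x : (𝓞 K)ˣ => (x : 𝓞 K)) h
  simpa [hu'] using h3

theorem unit_step_five (hp5 : 5 ≤ p)
    (𝔭 : Ideal (𝓞 K)) (h𝔭 : 𝔭.IsPrime) (hp𝔭 : ((p : ℕ) : 𝓞 K) ∈ 𝔭)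
    (ε : (𝓞 K)ˣ)
    (heig : ∀ σ : K ≃ₐ[ℚ] K, ∃ w : (𝓞 K)ˣ,
      σ ((ε : 𝓞 K) : K) = ((ε : 𝓞 K) : K) ^ sqExp p K σ * ((w : 𝓞 K) : K) ^ p)
    (hloc : ∃ n : ℤ, ((ε : 𝓞 K) - (n : 𝓞 K)) ∈ 𝔭 ^ 3) :
    ∃ w : (𝓞 K)ˣ, ε = w ^ p := by
  obtain ⟨n, hn⟩ := hloc
  obtain ⟨k, w, t, ht, h⟩ := exists_decomp p K hp5 ε heig
  refine pow_of_decomp p K hp5 ε n ?_ k w t ht h
  rwa [eq_span_piInt p K 𝔭 h𝔭 hp𝔭, Ideal.span_singleton_pow] at hn

end Fermat.Agent.S14.Thaine.Units
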