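import Fermat.Agent.S14.Thaine.Units.Defs

/-!
# Route T, block `Units`: `unit_step` for `p = 3`

Statement of `unit_step_three` FROZEN by helper276; proof and helper lemmas by helper354.

Proof: in `K = ℚ(ζ₃)` every unit of `𝓞 K` is a sixth root of unity
(`IsCyclotomicExtension.Rat.Three.Units.mem`).  Let `σ` be the automorphism with `σ ζ = ζ ^ 2`;
then `sqExp 3 K σ = 1`, so the hypothesis gives `σ ε = ε * w ^ 3`.  As `(ε ^ 4) ^ 3 = 1` we get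
`σ (ε ^ 4) = (ε ^ 4) ^ 2 = ε ^ 2`, while `σ (ε ^ 4) = (ε * w ^ 3) ^ 4 = ε ^ 4`.  Hence `ε ^ 2 = 1`
and `ε = ε ^ 3`.
-/

set_option autoImplicit false

namespace Fermat.Agent.S14.Thaine.Units

open NumberField

/-- In `ℚ(ζ₃)` every unit of the ring of integers is a sixth root of unity. -/
theorem unit_step_three_pow_six (K : Type*) [Field K] [NumberField K]
    [IsCyclotomicExtension {3} ℚ K] (u : (𝓞 K)ˣ) : ((u : 𝓞 K) : K) ^ 6 = 1 := by
  have hζ := IsCyclotomicExtension.zeta_spec 3 ℚ K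
  have hmem := IsCyclotomicExtension.Rat.Three.Units.mem hζ u
  have h3 : hζ.toInteger ^ 3 = 1 := hζ.toInteger_cube_eq_one
  have hη : ((IsPrimitiveRoot.isUnit (hζ.toInteger_isPrimitiveRoot) (by decide)).unit :
      (𝓞 K)ˣ) ^ 3 = 1 := by
    apply Units.ext
    rw [Units.val_pow_eq_pow_val, IsUnit.unit_spec, h3, Units.val_one]
  have hu6 : u ^ 6 = 1 := by
    simp only [List.mem_cons, List.not_mem_nil, or_false] at hmem
    rcases hmem with h | h | h | h | h | h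
    · rw [h, one_pow]
    · rw [h, Even.neg_pow (by decide), one_pow]
    · rw [h, show (6 : ℕ) = 3 * 2 from rfl, pow_mul, hη, one_pow]
    · rw [h, Even.neg_pow (by decide), show (6 : ℕ) = 3 * 2 from rfl, pow_mul, hη, one_pow]
    · rw [h, ← pow_mul, show (2 * 6 : ℕ) = 3 * 4 from rfl, pow_mul, hη, one_pow]
    · rw [h, Even.neg_pow (by decide), ← pow_mul, show (2 * 6 : ℕ) = 3 * 4 from rfl, pow_mul,
        hη, one_pow]
  have hcoe : (((u ^ 6 : (𝓞 K)ˣ) : 𝓞 K) : K) = ((u : 𝓞 K) : K) ^ 6 := by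
    rw [Units.val_pow_eq_pow_val]
    exact map_pow (algebraMap (𝓞 K) K) _ 6
  rw [← hcoe, hu6, Units.val_one]
  exact map_one (algebraMap (𝓞 K) K)

/-- `(-1)² = 1` in `ZMod 3`, as a statement about `ZMod.val`. -/
theorem unit_step_three_neg_one_sq_val : (((-1 : (ZMod 3)ˣ) : ZMod 3) ^ 2).val = 1 := by decide

/-- `-1 = 2` in `ZMod 3`, as a statement about `ZMod.val`. -/
theorem unit_step_three_neg_one_val : ((-1 : (ZMod 3)ˣ) : ZMod 3).val = 2 := by decide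

theorem unit_step_three {p : ℕ} [Fact p.Prime] (hp : p = 3)
    (K : Type*) [Field K] [NumberField K] [IsCyclotomicExtension {p} ℚ K]
    (ε : (𝓞 K)ˣ)
    (heig : ∀ σ : K ≃ₐ[ℚ] K, ∃ w : (𝓞 K)ˣ,
      σ ((ε : 𝓞 K) : K) = ((ε : 𝓞 K) : K) ^ sqExp p K σ * ((w : 𝓞 K) : K) ^ p) :
    ∃ w : (𝓞 K)ˣ, ε = w ^ p := by
  subst hp
  -- the automorphism `σ` with `σ ζ = ζ ^ 2`
  obtain ⟨σ, hσ⟩ := (IsCyclotomicExtension.Rat.galEquivZMod 3 K).surjective (-1)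
  have hsq : sqExp 3 K σ = 1 := by
    unfold sqExp chi
    rw [hσ]
    exact unit_step_three_neg_one_sq_val
  obtain ⟨w, hw⟩ := heig σ
  rw [hsq, pow_one] at hw
  have he6 : ((ε : 𝓞 K) : K) ^ 6 = 1 := unit_step_three_pow_six K ε
  have hw6 : ((w : 𝓞 K) : K) ^ 6 = 1 := unit_step_three_pow_six K w
  have he0 : ((ε : 𝓞 K) : K) ≠ 0 := by
    intro h
    rw [h, zero_pow (by decide)] at he6
    exact zero_ne_one he6
  -- `x = ε ^ 4` is a cube root of unity, hence `σ x = x ^ 2`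
  have hx : (((ε : 𝓞 K) : K) ^ 4) ^ 3 = 1 := by
    rw [← pow_mul, show (4 * 3 : ℕ) = 6 * 2 from rfl, pow_mul, he6, one_pow]
  have hσx := IsCyclotomicExtension.Rat.galEquivZMod_apply_of_pow_eq 3 K σ hx
  rw [hσ, unit_step_three_neg_one_val, map_pow, hw] at hσx
  -- now `hσx : (ε * w ^ 3) ^ 4 = (ε ^ 4) ^ 2`
  have hw12 : (((w : 𝓞 K) : K) ^ 3) ^ 4 = 1 := by
    rw [← pow_mul, show (3 * 4 : ℕ) = 6 * 2 from rfl, pow_mul, hw6, one_pow]
  have h42 : ((ε : 𝓞 K) : K) ^ 4 = ((ε : 𝓞 K) : K) ^ 2 := by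
    have h8 : (((ε : 𝓞 K) : K) ^ 4) ^ 2 = ((ε : 𝓞 K) : K) ^ 2 := by
      rw [← pow_mul, show (4 * 2 : ℕ) = 6 + 2 from rfl, pow_add, he6, one_mul]
    rw [← h8, ← hσx, mul_pow, hw12, mul_one]
  have he2 : ((ε : 𝓞 K) : K) ^ 2 = 1 := by
    have h0 : ((ε : 𝓞 K) : K) ^ 2 * (((ε : 𝓞 K) : K) ^ 2 - 1) = 0 := by
      rw [mul_sub, mul_one, ← pow_add, h42, sub_self]
    rcases mul_eq_zero.mp h0 with h | h
    · exact absurd ((pow_eq_zero_iff two_ne_zero).mp h) he0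
    · exact sub_eq_zero.mp h
  -- hence `ε = ε ^ 3`
  refine ⟨ε, ?_⟩
  apply Units.ext
  apply RingOfIntegers.ext
  have hcoe : (((ε ^ 3 : (𝓞 K)ˣ) : 𝓞 K) : K) = ((ε : 𝓞 K) : K) ^ 3 := by
    rw [Units.val_pow_eq_pow_val]
    exact map_pow (algebraMap (𝓞 K) K) _ 3
  rw [hcoe, show (3 : ℕ) = 2 + 1 from rfl, pow_add, he2, one_mul, pow_one]

end Fermat.Agent.S14.Thaine.Units
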