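import Fermat.Agent.S14.Thaine.Defs

/-!
# Route T, block `Units`: shared definitions (owner helper276; FROZEN)

`K = ℚ(ζ_p)`, `ζ = zetaInt p K`, `π = piInt p K = 1 - ζ`.

* `Rep x c₀ c₁ c₂` : `x ≡ c₀ + c₁ π + c₂ π² (mod π³)` with integers `c₀ c₁ c₂`.
* `AB x a b` : `x` has a representation `(c₀, c₁, c₂)` with `p ∤ c₀` and "logarithmic"
  invariants `a = c₁/c₀`, `b = c₂/c₀ - (c₁/c₀)²/2` in `ZMod p` (both additive under multiplication).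
* `theta j = ∑_{i<j} ζ^i` (so `1 - ζ^j = π * theta j`), `uPrime = ∏_{0<j<p} (theta j)^{e_j}`,
  `expSum = ∑_{0<j<p} e_j`, `e_j = ((j : ZMod p)^(p-3)).val`; `thaineU = π^expSum * uPrime`.
* `galU σ` : the action of `σ ∈ Gal(K/ℚ)` on the units of `𝓞 K`.
-/

set_option autoImplicit false

namespace Fermat.Agent.S14.Thaine.Units

open NumberField

section Cyclo

variable (p : ℕ) [Fact p.Prime] (K : Type*) [Field K] [NumberField K]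
  [IsCyclotomicExtension {p} ℚ K]

/-- `π = 1 - ζ`. -/
noncomputable def piInt : 𝓞 K := 1 - zetaInt p K

/-- `x ≡ c₀ + c₁ π + c₂ π² (mod π³)`. -/
def Rep (x : 𝓞 K) (c₀ c₁ c₂ : ℤ) : Prop :=
  x - ((c₀ : 𝓞 K) + (c₁ : 𝓞 K) * piInt p K + (c₂ : 𝓞 K) * piInt p K ^ 2) ∈
    Ideal.span {piInt p K ^ 3}

/-- `x` has a representation `(c₀, c₁, c₂)` modulo `π³` with `p ∤ c₀`, `a = c₁/c₀` and
`b = c₂/c₀ - (c₁/c₀)²/2` in `ZMod p`. -/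
def AB (x : 𝓞 K) (a b : ZMod p) : Prop :=
  ∃ c₀ c₁ c₂ : ℤ, Rep p K x c₀ c₁ c₂ ∧ (c₀ : ZMod p) ≠ 0 ∧
    a = (c₁ : ZMod p) / (c₀ : ZMod p) ∧
    b = (c₂ : ZMod p) / (c₀ : ZMod p) - ((c₁ : ZMod p) / (c₀ : ZMod p)) ^ 2 / 2

/-- `θ_j = ∑_{i<j} ζ^i`, so that `1 - ζ^j = π * θ_j`. -/
noncomputable def theta (j : ℕ) : 𝓞 K := ∑ i ∈ Finset.range j, zetaInt p K ^ i

/-- `u' = ∏_{0<j<p} θ_j ^ e_j`. -/
noncomputable def uPrime : 𝓞 K :=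
  ∏ j ∈ Finset.Ioo 0 p, theta p K j ^ (((j : ZMod p)) ^ (p - 3)).val

end Cyclo

/-- `E = ∑_{0<j<p} e_j`, `e_j = ((j : ZMod p)^(p-3)).val`. -/
def expSum (p : ℕ) : ℕ := ∑ j ∈ Finset.Ioo 0 p, (((j : ZMod p)) ^ (p - 3)).val

section Gal

variable (K : Type*) [Field K] [NumberField K]

/-- The action of the Galois group on the units of `𝓞 K`. -/
noncomputable def galU (σ : K ≃ₐ[ℚ] K) : (𝓞 K)ˣ ≃* (𝓞 K)ˣ :=
  Units.mapEquiv (RingOfIntegers.mapRingEquiv (σ : K ≃+* K)).toMulEquiv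

theorem coe_galU (σ : K ≃ₐ[ℚ] K) (e : (𝓞 K)ˣ) :
    (((galU K σ e : (𝓞 K)ˣ) : 𝓞 K) : K) = σ ((e : 𝓞 K) : K) := rfl

theorem galU_one (e : (𝓞 K)ˣ) : galU K 1 e = e := by
  apply Units.ext
  apply RingOfIntegers.ext
  rw [coe_galU]
  rfl

theorem galU_mul (σ τ : K ≃ₐ[ℚ] K) (e : (𝓞 K)ˣ) :
    galU K (σ * τ) e = galU K σ (galU K τ e) := by
  apply Units.ext
  apply RingOfIntegers.ext
  rw [coe_galU, coe_galU, coe_galU]
  rfl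

theorem galU_pow_apply (σ : K ≃ₐ[ℚ] K) (i : ℕ) (e : (𝓞 K)ˣ) :
    galU K (σ ^ i) e = (⇑(galU K σ))^[i] e := by
  induction i with
  | zero => simp [galU_one]
  | succ i ih => rw [pow_succ', galU_mul, ih, Function.iterate_succ_apply']

end Gal

end Fermat.Agent.S14.Thaine.Units
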