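import Mathlib

/-!
# Route T, block `Units`: the pure algebra lemma (additive form)

Statement FROZEN by helper276 (replace the `sorry` only; add helper lemmas freely).
-/

set_option autoImplicit false

namespace Fermat.Agent.S14.Thaine.Units

/-- In a finite abelian group whose order is not divisible by `p²`, any element killed by `p`
is a multiple of any nonzero element killed by `p`. -/
theorem lemmaXaux_finite {Q : Type*} [AddCommGroup Q] (p : ℕ) (hp : p.Prime)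
    (hQ : ¬ p ^ 2 ∣ Nat.card Q) (a b : Q) (ha : p • a = 0) (hb : p • b = 0) (hb0 : b ≠ 0) :
    ∃ k : ℤ, a = k • b := by
  have : Fact p.Prime := ⟨hp⟩
  have hord : addOrderOf b = p := addOrderOf_eq_prime hb hb0
  have hcardH : Nat.card (AddSubgroup.zmultiples b) = p := by
    rw [Nat.card_zmultiples, hord]
  have hcard : Nat.card Q
      = Nat.card (Q ⧸ AddSubgroup.zmultiples b) * Nat.card (AddSubgroup.zmultiples b) :=
    AddSubgroup.card_eq_card_quotient_mul_card_addSubgroup (AddSubgroup.zmultiples b)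
  have hnd : ¬ p ∣ Nat.card (Q ⧸ AddSubgroup.zmultiples b) := by
    intro h
    apply hQ
    rw [hcard, hcardH, pow_two]
    exact Nat.mul_dvd_mul h (dvd_refl p)
  have h1 : addOrderOf (QuotientAddGroup.mk a : Q ⧸ AddSubgroup.zmultiples b) ∣ p := by
    apply addOrderOf_dvd_of_nsmul_eq_zero
    rw [← QuotientAddGroup.mk_nsmul, ha, QuotientAddGroup.mk_zero]
  have h2 : addOrderOf (QuotientAddGroup.mk a : Q ⧸ AddSubgroup.zmultiples b)
      ∣ Nat.card (Q ⧸ AddSubgroup.zmultiples b) := addOrderOf_dvd_natCard _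
  have h3 : addOrderOf (QuotientAddGroup.mk a : Q ⧸ AddSubgroup.zmultiples b) = 1 := by
    rcases (Nat.dvd_prime hp).mp h1 with h | h
    · exact h
    · exact absurd (h ▸ h2) hnd
  rw [AddMonoid.addOrderOf_eq_one_iff, QuotientAddGroup.eq_zero_iff] at h3
  obtain ⟨k, hk⟩ := AddSubgroup.mem_zmultiples_iff.mp h3
  exact ⟨k, hk.symm⟩

/-- If `V/W` is generated by the class of `v` and killed by `μ`, its order divides `μ`. -/
theorem lemmaXaux_relIndex_dvd {G : Type*} [AddCommGroup G] (W V : AddSubgroup G)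
    (v : G) (hv : v ∈ V) (μ : ℕ) (hμ : μ • v ∈ W)
    (hgen : ∀ x ∈ V, ∃ k : ℤ, x - k • v ∈ W) : W.relIndex V ∣ μ := by
  rw [AddSubgroup.relIndex, AddSubgroup.index_eq_card]
  have htop : AddSubgroup.zmultiples
      (QuotientAddGroup.mk (⟨v, hv⟩ : V) : V ⧸ W.addSubgroupOf V) = ⊤ := by
    rw [eq_top_iff]
    rintro x -
    obtain ⟨⟨y, hy⟩, rfl⟩ := QuotientAddGroup.mk_surjective x
    obtain ⟨k, hk⟩ := hgen y hy
    rw [AddSubgroup.mem_zmultiples_iff]
    refine ⟨k, ?_⟩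
    rw [← QuotientAddGroup.mk_zsmul, QuotientAddGroup.eq, AddSubgroup.mem_addSubgroupOf]
    have : ((-(k • (⟨v, hv⟩ : V)) + ⟨y, hy⟩ : V) : G) = y - k • v := by
      push_cast
      abel
    rw [this]
    exact hk
  have hcard : Nat.card (V ⧸ W.addSubgroupOf V)
      = addOrderOf (QuotientAddGroup.mk (⟨v, hv⟩ : V) : V ⧸ W.addSubgroupOf V) := by
    rw [← Nat.card_zmultiples, htop, AddSubgroup.card_top]
  rw [hcard]
  apply addOrderOf_dvd_of_nsmul_eq_zero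
  rw [← QuotientAddGroup.mk_nsmul, QuotientAddGroup.eq_zero_iff, AddSubgroup.mem_addSubgroupOf]
  simpa using hμ

/-- Index bookkeeping: for an injective endomorphism `φ` and a `φ`-stable subgroup `V` of
finite index, the index of the image of `φ` is the index of `φ V` in `V`. -/
theorem lemmaXaux_index_range {G : Type*} [AddCommGroup G] (φ : G →+ G)
    (hφ : Function.Injective φ) (V : AddSubgroup G) (hV : V.index ≠ 0) (hφV : V.map φ ≤ V) :
    φ.range.index = (V.map φ).relIndex V := by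
  have h1 : (V.map φ).relIndex V * V.index = (V.map φ).index :=
    AddSubgroup.relIndex_mul_index hφV
  have h2 : (V.map φ).relIndex φ.range * φ.range.index = (V.map φ).index :=
    AddSubgroup.relIndex_mul_index (AddSubgroup.map_le_range φ V)
  have h3 : (V.map φ).relIndex φ.range = V.index := by
    rw [AddMonoidHom.range_eq_map, AddSubgroup.relIndex_map_map_of_injective _ _ hφ,
      AddSubgroup.relIndex_top_right]
  rw [h3, ← h1, mul_comm] at h2
  exact Nat.eq_of_mul_eq_mul_right (Nat.pos_of_ne_zero hV) h2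

section

variable {Λ : Type*} [AddCommGroup Λ]

/-- `φ = T - c`. -/
def lemmaXauxPhi (T : Λ →+ Λ) (c : ℕ) : Λ →+ Λ := T - nsmulAddMonoidHom c

theorem lemmaXaux_phi_apply (T : Λ →+ Λ) (c : ℕ) (x : Λ) :
    lemmaXauxPhi T c x = T x - c • x := rfl

theorem lemmaXaux_iterate_eq (T : Λ →+ Λ) (c : ℕ) (x : Λ) (h : T x = c • x) (i : ℕ) :
    (⇑T)^[i] x = c ^ i • x := by
  induction i with
  | zero => simp
  | succ i ih => rw [Function.iterate_succ_apply', ih, map_nsmul, h, pow_succ, mul_smul]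

theorem lemmaXaux_phi_injective (htf : ∀ (n : ℕ) (x : Λ), 0 < n → n • x = 0 → x = 0)
    (T : Λ →+ Λ) (m : ℕ) (c : ℕ)
    (hN : ∀ x : Λ, ∑ i ∈ Finset.range m, (⇑T)^[i] x = 0)
    (hμ : 0 < ∑ i ∈ Finset.range m, c ^ i) : Function.Injective (lemmaXauxPhi T c) := by
  rw [injective_iff_map_eq_zero]
  intro x hx
  have h : T x = c • x := sub_eq_zero.mp hx
  have h2 : (∑ i ∈ Finset.range m, c ^ i) • x = 0 := by
    rw [Finset.sum_smul, ← hN x]
    exact Finset.sum_congr rfl (fun i _ => (lemmaXaux_iterate_eq T c x h i).symm)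
  exact htf _ x hμ h2

theorem lemmaXaux_T_mem (T : Λ →+ Λ) (m : ℕ) (hm : 2 ≤ m)
    (hN : ∀ x : Λ, ∑ i ∈ Finset.range m, (⇑T)^[i] x = 0) (v : Λ) (x : Λ)
    (hx : x ∈ AddSubgroup.closure {x : Λ | ∃ i : ℕ, i < m - 1 ∧ x = (⇑T)^[i] v}) :
    T x ∈ AddSubgroup.closure {x : Λ | ∃ i : ℕ, i < m - 1 ∧ x = (⇑T)^[i] v} := by
  induction hx using AddSubgroup.closure_induction with
  | mem x hx =>
    obtain ⟨i, hi, rfl⟩ := hx
    rw [← Function.iterate_succ_apply' (⇑T) i v]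
    by_cases h : i + 1 < m - 1
    · exact AddSubgroup.subset_closure ⟨i + 1, h, rfl⟩
    · have hi1 : i + 1 = m - 1 := by omega
      have hsum := hN v
      obtain ⟨n, rfl⟩ : ∃ n, m = n + 1 := ⟨m - 1, by omega⟩
      rw [Finset.sum_range_succ] at hsum
      have h3 : (⇑T)^[n] v = - ∑ i ∈ Finset.range n, (⇑T)^[i] v :=
        eq_neg_of_add_eq_zero_right hsum
      have hi2 : i.succ = n := by omega
      rw [hi2, h3]
      apply neg_mem
      apply sum_mem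
      intro j hj
      exact AddSubgroup.subset_closure ⟨j, by simpa using hj, rfl⟩
  | zero => rw [map_zero]; exact zero_mem _
  | add x y hx hy ihx ihy => rw [map_add]; exact add_mem ihx ihy
  | neg x hx ih => rw [map_neg]; exact neg_mem ih

theorem lemmaXaux_iterate_mem (T : Λ →+ Λ) (m : ℕ) (hm : 2 ≤ m)
    (hN : ∀ x : Λ, ∑ i ∈ Finset.range m, (⇑T)^[i] x = 0) (v : Λ) (i : ℕ) :
    (⇑T)^[i] v ∈
      AddSubgroup.closure {x : Λ | ∃ i : ℕ, i < m - 1 ∧ x = (⇑T)^[i] v} := by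
  induction i with
  | zero => exact AddSubgroup.subset_closure ⟨0, by omega, rfl⟩
  | succ i ih =>
    rw [Function.iterate_succ_apply']
    exact lemmaXaux_T_mem T m hm hN v _ ih

theorem lemmaXaux_iterate_sub_mem (T : Λ →+ Λ) (m : ℕ) (hm : 2 ≤ m) (c : ℕ)
    (hN : ∀ x : Λ, ∑ i ∈ Finset.range m, (⇑T)^[i] x = 0) (v : Λ) (i : ℕ) :
    (⇑T)^[i] v - c ^ i • v ∈
      (AddSubgroup.closure {x : Λ | ∃ i : ℕ, i < m - 1 ∧ x = (⇑T)^[i] v}).map
        (lemmaXauxPhi T c) := by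
  induction i with
  | zero => simp
  | succ i ih =>
    have h : (⇑T)^[i + 1] v - c ^ (i + 1) • v
        = lemmaXauxPhi T c ((⇑T)^[i] v) + c • ((⇑T)^[i] v - c ^ i • v) := by
      rw [Function.iterate_succ_apply', lemmaXaux_phi_apply, smul_sub, pow_succ', mul_smul]
      abel
    rw [h]
    exact add_mem (AddSubgroup.mem_map_of_mem _ (lemmaXaux_iterate_mem T m hm hN v i))
      (nsmul_mem ih c)

theorem lemmaXaux_exists_int (T : Λ →+ Λ) (m : ℕ) (hm : 2 ≤ m) (c : ℕ)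
    (hN : ∀ x : Λ, ∑ i ∈ Finset.range m, (⇑T)^[i] x = 0) (v : Λ) (x : Λ)
    (hx : x ∈ AddSubgroup.closure {x : Λ | ∃ i : ℕ, i < m - 1 ∧ x = (⇑T)^[i] v}) :
    ∃ k : ℤ, x - k • v ∈
      (AddSubgroup.closure {x : Λ | ∃ i : ℕ, i < m - 1 ∧ x = (⇑T)^[i] v}).map
        (lemmaXauxPhi T c) := by
  induction hx using AddSubgroup.closure_induction with
  | mem x hx =>
    obtain ⟨i, hi, rfl⟩ := hx
    refine ⟨((c ^ i : ℕ) : ℤ), ?_⟩
    rw [natCast_zsmul]
    exact lemmaXaux_iterate_sub_mem T m hm c hN v i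
  | zero => exact ⟨0, by simp⟩
  | add x y hx hy ihx ihy =>
    obtain ⟨k1, h1⟩ := ihx
    obtain ⟨k2, h2⟩ := ihy
    refine ⟨k1 + k2, ?_⟩
    have h : x + y - (k1 + k2) • v = (x - k1 • v) + (y - k2 • v) := by
      rw [add_smul]
      abel
    rw [h]
    exact add_mem h1 h2
  | neg x hx ih =>
    obtain ⟨k, h⟩ := ih
    refine ⟨-k, ?_⟩
    have h' : -x - (-k) • v = -(x - k • v) := by
      rw [neg_smul]
      abel
    rw [h']
    exact neg_mem h

theorem lemmaXaux_mu_mem (T : Λ →+ Λ) (m : ℕ) (hm : 2 ≤ m) (c : ℕ)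
    (hN : ∀ x : Λ, ∑ i ∈ Finset.range m, (⇑T)^[i] x = 0) (v : Λ) :
    (∑ i ∈ Finset.range m, c ^ i) • v ∈
      (AddSubgroup.closure {x : Λ | ∃ i : ℕ, i < m - 1 ∧ x = (⇑T)^[i] v}).map
        (lemmaXauxPhi T c) := by
  have h : (∑ i ∈ Finset.range m, c ^ i) • v
      = - ∑ i ∈ Finset.range m, ((⇑T)^[i] v - c ^ i • v) := by
    rw [Finset.sum_sub_distrib, hN v, zero_sub, neg_neg, Finset.sum_smul]
  rw [h]
  exact neg_mem (sum_mem fun i _ => lemmaXaux_iterate_sub_mem T m hm c hN v i)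

end

/-- `Λ` a torsion-free abelian group, `T` an endomorphism with `∑_{i<m} T^i = 0`, such that
`v, T v, …, T^(m-2) v` generate a subgroup of finite index, `c` with `p² ∤ ∑_{i<m} c^i`.
Then the `c`-eigenspace of `T` on `Λ/pΛ` is at most one-dimensional. -/
theorem lemmaX {Λ : Type*} [AddCommGroup Λ]
    (htf : ∀ (n : ℕ) (x : Λ), 0 < n → n • x = 0 → x = 0)
    (T : Λ →+ Λ) (p : ℕ) (hp : p.Prime) (m : ℕ) (hm : 2 ≤ m) (c : ℕ)
    (hN : ∀ x : Λ, ∑ i ∈ Finset.range m, (⇑T)^[i] x = 0)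
    (v : Λ)
    (hv : (AddSubgroup.closure {x : Λ | ∃ i : ℕ, i < m - 1 ∧ x = (⇑T)^[i] v}).FiniteIndex)
    (hc : ¬ p ^ 2 ∣ ∑ i ∈ Finset.range m, c ^ i)
    (x₁ x₂ : Λ)
    (h₁ : ∃ y : Λ, T x₁ = c • x₁ + p • y)
    (h₂ : ∃ y : Λ, T x₂ = c • x₂ + p • y)
    (h₂' : ¬ ∃ y : Λ, x₂ = p • y) :
    ∃ (k : ℤ) (y : Λ), x₁ = k • x₂ + p • y := by
  have hμpos : 0 < ∑ i ∈ Finset.range m, c ^ i :=
    Nat.pos_of_ne_zero (fun h => hc (h ▸ dvd_zero _))
  have hinj : Function.Injective (lemmaXauxPhi T c) := lemmaXaux_phi_injective htf T m c hN hμpos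
  have hφV : (AddSubgroup.closure {x : Λ | ∃ i : ℕ, i < m - 1 ∧ x = (⇑T)^[i] v}).map
      (lemmaXauxPhi T c) ≤
      AddSubgroup.closure {x : Λ | ∃ i : ℕ, i < m - 1 ∧ x = (⇑T)^[i] v} := by
    rintro _ ⟨x, hx, rfl⟩
    rw [lemmaXaux_phi_apply]
    exact sub_mem (lemmaXaux_T_mem T m hm hN v x hx) (nsmul_mem hx c)
  have hvV : v ∈ AddSubgroup.closure {x : Λ | ∃ i : ℕ, i < m - 1 ∧ x = (⇑T)^[i] v} :=
    AddSubgroup.subset_closure ⟨0, by omega, rfl⟩
  have hrel := lemmaXaux_relIndex_dvd _ _ v hvV _ (lemmaXaux_mu_mem T m hm c hN v)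
    (lemmaXaux_exists_int T m hm c hN v)
  have hidx := lemmaXaux_index_range (lemmaXauxPhi T c) hinj _ hv.index_ne_zero hφV
  rw [← hidx] at hrel
  have hidx0 : (lemmaXauxPhi T c).range.index ≠ 0 := by
    intro h
    rw [h] at hrel
    exact hμpos.ne' (zero_dvd_iff.mp hrel)
  have hQ : ¬ p ^ 2 ∣ Nat.card (Λ ⧸ (lemmaXauxPhi T c).range) := by
    rw [← AddSubgroup.index_eq_card]
    exact fun h => hc (h.trans hrel)
  obtain ⟨y₁, hy₁⟩ := h₁
  obtain ⟨y₂, hy₂⟩ := h₂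
  have hφ1 : lemmaXauxPhi T c x₁ = p • y₁ := by
    rw [lemmaXaux_phi_apply, hy₁]
    abel
  have hφ2 : lemmaXauxPhi T c x₂ = p • y₂ := by
    rw [lemmaXaux_phi_apply, hy₂]
    abel
  have ha : p • (QuotientAddGroup.mk y₁ : Λ ⧸ (lemmaXauxPhi T c).range) = 0 := by
    rw [← QuotientAddGroup.mk_nsmul, QuotientAddGroup.eq_zero_iff, ← hφ1]
    exact ⟨x₁, rfl⟩
  have hb : p • (QuotientAddGroup.mk y₂ : Λ ⧸ (lemmaXauxPhi T c).range) = 0 := by
    rw [← QuotientAddGroup.mk_nsmul, QuotientAddGroup.eq_zero_iff, ← hφ2]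
    exact ⟨x₂, rfl⟩
  have hb0 : (QuotientAddGroup.mk y₂ : Λ ⧸ (lemmaXauxPhi T c).range) ≠ 0 := by
    intro h
    rw [QuotientAddGroup.eq_zero_iff] at h
    obtain ⟨z, hz⟩ := h
    apply h₂'
    refine ⟨z, hinj ?_⟩
    rw [hφ2, map_nsmul, hz]
  obtain ⟨k, hk⟩ := lemmaXaux_finite p hp hQ _ _ ha hb hb0
  rw [← QuotientAddGroup.mk_zsmul, QuotientAddGroup.eq] at hk
  obtain ⟨z, hz⟩ := hk
  refine ⟨k, -z, hinj ?_⟩
  rw [map_add, map_zsmul, map_nsmul, map_neg, hφ1, hφ2, hz, smul_neg, smul_add, smul_neg,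
    neg_add, neg_neg, smul_comm k p y₂]
  abel

end Fermat.Agent.S14.Thaine.Units
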