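import Fermat.Agent.S14.Thaine.Units.UPrime
import Fermat.Agent.S14.Thaine.Units.Torsion

/-!
# Route T, block `Units`: `u'` is not (root of unity)·(`p`-th power); `u` is not a `p`-th power

Statements FROZEN by helper276 (replace each `sorry` only; add helper lemmas freely).
-/

set_option autoImplicit false

namespace Fermat.Agent.S14.Thaine.Units

open NumberField

variable (p : ℕ) [Fact p.Prime] (K : Type*) [Field K] [NumberField K]
  [IsCyclotomicExtension {p} ℚ K]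

/-- A prime `p ≥ 5` does not divide `24`, so `24` is invertible in `ZMod p`. -/
theorem notPow_twentyFour_ne_zero (hp5 : 5 ≤ p) : (24 : ZMod p) ≠ 0 := by
  have hpp : p.Prime := Fact.out
  intro h
  have h1 : ((24 : ℕ) : ZMod p) = 0 := by
    rw [← h]
    norm_cast
  have h2 : p ∣ 24 := (ZMod.natCast_eq_zero_iff 24 p).mp h1
  have h3 : p ∣ 2 ^ 3 * 3 := by
    have h4 : (2 : ℕ) ^ 3 * 3 = 24 := by norm_num
    rw [h4]
    exact h2
  rcases (Nat.Prime.dvd_mul hpp).mp h3 with h5 | h5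
  · have h6 : p ∣ 2 := Nat.Prime.dvd_of_dvd_pow hpp h5
    have h7 : p ≤ 2 := Nat.le_of_dvd (by norm_num) h6
    omega
  · have h7 : p ≤ 3 := Nat.le_of_dvd (by norm_num) h5
    omega

/-- `u' = ζ^i w^p` with `w` a unit is impossible (compare the invariants `(0, -1/24)` of `u'`
with `(-i, -i/2) + (0, 0)`). -/
theorem uPrime_ne_zeta_pow_mul_pow (hp5 : 5 ≤ p) (i : ℕ) (w : 𝓞 K) (hw : IsUnit w) :
    uPrime p K ≠ zetaInt p K ^ i * w ^ p := by
  intro h
  have h1 : AB p K (zetaInt p K ^ i) (-(i : ZMod p)) (-(i : ZMod p) / 2) :=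
    AB_zeta_pow p K hp5 i
  have h2 : AB p K (w ^ p) 0 0 := AB_pow_p p K hp5 w (piInt_not_dvd_of_isUnit p K hw)
  have h3 : AB p K (zetaInt p K ^ i * w ^ p) (-(i : ZMod p) + 0) (-(i : ZMod p) / 2 + 0) :=
    AB_mul p K hp5 h1 h2
  rw [← h] at h3
  have h4 : AB p K (uPrime p K) 0 (-1 / 24) := AB_uPrime p K hp5
  obtain ⟨ha, hb⟩ := AB_unique p K hp5 h4 h3
  have hi : (i : ZMod p) = 0 := by
    rw [add_zero] at ha
    exact neg_eq_zero.mp ha.symm
  rw [hi, neg_zero, zero_div, add_zero] at hb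
  have h24 : (24 : ZMod p) ≠ 0 := notPow_twentyFour_ne_zero p hp5
  have h5 : (-1 : ZMod p) / 24 ≠ 0 := div_ne_zero (neg_ne_zero.mpr one_ne_zero) h24
  exact h5 hb

theorem uPrime_not_torsion_mul_pow (hp5 : 5 ≤ p) :
    ¬ ∃ w t : (𝓞 K)ˣ, t ∈ NumberField.Units.torsion K ∧
      uPrime p K = (w : 𝓞 K) ^ p * (t : 𝓞 K) := by
  rintro ⟨w, t, ht, h⟩
  obtain ⟨s, i, hs⟩ := torsion_eq_pow_mul_zeta p K (by omega) t ht
  refine uPrime_ne_zeta_pow_mul_pow p K hp5 i ((w : 𝓞 K) * (s : 𝓞 K))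
    (w.isUnit.mul s.isUnit) ?_
  rw [h, hs, mul_pow]
  ring

theorem thaineU_not_pow_aux (hp5 : 5 ≤ p) :
    ¬ ∃ x : K, ((thaineU p K : 𝓞 K) : K) = x ^ p := by
  rintro ⟨x, hx⟩
  have hp : 0 < p := (Fact.out : p.Prime).pos
  obtain ⟨M, hM⟩ := p_dvd_expSum p hp5
  have hπ0 : ((piInt p K : 𝓞 K) : K) ≠ 0 := fun h =>
    (piInt_prime p K).ne_zero (RingOfIntegers.coe_eq_zero_iff.mp h)
  have h1 : ((thaineU p K : 𝓞 K) : K) =
      (((piInt p K : 𝓞 K) : K) ^ M) ^ p * ((uPrime p K : 𝓞 K) : K) := by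
    rw [thaineU_eq, hM, ← pow_mul, mul_comm M p]
    simp only [map_mul, map_pow]
  have hπM0 : (((piInt p K : 𝓞 K) : K) ^ M) ^ p ≠ 0 := pow_ne_zero _ (pow_ne_zero _ hπ0)
  have hyp : (x / ((piInt p K : 𝓞 K) : K) ^ M) ^ p = ((uPrime p K : 𝓞 K) : K) := by
    rw [div_pow, ← hx, h1, mul_comm, mul_div_assoc, div_self hπM0, mul_one]
  have hint : IsIntegral ℤ (x / ((piInt p K : 𝓞 K) : K) ^ M) := by
    refine IsIntegral.of_pow hp ?_
    rw [hyp]
    exact RingOfIntegers.isIntegral_coe (uPrime p K)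
  let w : 𝓞 K := ⟨x / ((piInt p K : 𝓞 K) : K) ^ M, hint⟩
  have hw : (w : K) = x / ((piInt p K : 𝓞 K) : K) ^ M := rfl
  have hwu : w ^ p = uPrime p K := by
    apply RingOfIntegers.ext
    rw [← hyp, ← hw]
    exact map_pow (algebraMap (𝓞 K) K) w p
  have hunit : IsUnit w := by
    have h2 : IsUnit (w ^ p) := by rw [hwu]; exact isUnit_uPrime p K
    exact (isUnit_pow_iff hp.ne').mp h2
  refine uPrime_ne_zeta_pow_mul_pow p K hp5 0 w hunit ?_
  rw [pow_zero, one_mul, hwu]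

end Fermat.Agent.S14.Thaine.Units
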