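import Fermat.Agent.S14.Thaine.Units.Defs

/-!
# Route T, block `Units`: the Galois action on the infinite places of `ℚ(ζ_p)`

Statements FROZEN by helper276; all proofs complete (helper lemmas `places_*` added).
`γ` is a generator of `Gal(K/ℚ)` (cyclic of order `p - 1 = 2m`); the `m` infinite places are
`γ^i • w`, `i < m`, for any place `w`.
-/

set_option autoImplicit false

namespace Fermat.Agent.S14.Thaine.Units

open NumberField

theorem exists_gal_generator (p : ℕ) [Fact p.Prime] (K : Type*) [Field K] [NumberField K]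
    [IsCyclotomicExtension {p} ℚ K] :
    ∃ γ : K ≃ₐ[ℚ] K, ∀ σ : K ≃ₐ[ℚ] K, σ ∈ Subgroup.zpowers γ := by
  have h1 : IsCyclic (ZMod p)ˣ := inferInstance
  have h2 : IsCyclic (K ≃ₐ[ℚ] K) :=
    (IsCyclotomicExtension.Rat.galEquivZMod p K).isCyclic.mpr h1
  exact IsCyclic.exists_generator

variable (p : ℕ) [Fact p.Prime] (K : Type*) [Field K] [NumberField K]
  [IsCyclotomicExtension {p} ℚ K]

theorem card_infinitePlace (hp3 : 3 ≤ p) : Fintype.card (InfinitePlace K) = (p - 1) / 2 := by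
  have h1 := IsCyclotomicExtension.Rat.nrRealPlaces_eq_zero (n := p) K (by omega)
  have h2 := IsCyclotomicExtension.Rat.nrComplexPlaces_eq_totient_div_two p K
  rw [NumberField.InfinitePlace.card_eq_nrRealPlaces_add_nrComplexPlaces, h1, h2, zero_add,
    Nat.totient_prime Fact.out]

/-- The Galois group of `ℚ(ζ_p)/ℚ` has `p - 1` elements. -/
theorem places_card_gal : Nat.card (K ≃ₐ[ℚ] K) = p - 1 := by
  rw [Nat.card_congr (IsCyclotomicExtension.Rat.galEquivZMod p K).toEquiv,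
    Nat.card_eq_fintype_card, ZMod.card_units_eq_totient, Nat.totient_prime Fact.out]

/-- An element of the stabilizer of an infinite place has square `1`. -/
theorem places_sq_eq_one_of_smul_eq {k : Type*} [Field k] {L : Type*} [Field L] [Algebra k L]
    (g : L ≃ₐ[k] L) (w : InfinitePlace L)
    (hg : g • w = w) : g ^ 2 = 1 := by
  have hmem : g ∈ MulAction.stabilizer (L ≃ₐ[k] L) w := MulAction.mem_stabilizer_iff.mpr hg
  have hpow : (⟨g, hmem⟩ : MulAction.stabilizer (L ≃ₐ[k] L) w) ^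
      Nat.card (MulAction.stabilizer (L ≃ₐ[k] L) w) = 1 := pow_card_eq_one'
  have hpow' : g ^ Nat.card (MulAction.stabilizer (L ≃ₐ[k] L) w) = 1 := by
    have := congrArg Subtype.val hpow
    simpa using this
  rcases InfinitePlace.nat_card_stabilizer_eq_one_or_two k w with h | h
  · rw [h, pow_one] at hpow'
    rw [hpow', one_pow]
  · rwa [h] at hpow'

/-- Two powers `γ^i • w`, `γ^j • w` with `i < j < (p-1)/2` are different places. -/
theorem places_ne_of_lt (γ : K ≃ₐ[ℚ] K)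
    (hγ : ∀ σ : K ≃ₐ[ℚ] K, σ ∈ Subgroup.zpowers γ) (w : InfinitePlace K)
    {i j : ℕ} (hij : i < j) (hj : j < (p - 1) / 2) :
    (γ ^ i) • w ≠ (γ ^ j) • w := by
  intro h
  have hord : orderOf γ = p - 1 := by
    rw [orderOf_eq_card_of_forall_mem_zpowers hγ, places_card_gal p K]
  have h3 : (γ ^ (j - i)) • w = w := by
    have hpow : γ ^ j = γ ^ i * γ ^ (j - i) := by
      rw [← pow_add]
      congr 1
      omega
    rw [hpow, mul_smul] at h
    exact (smul_left_cancel (γ ^ i) h).symm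
  have h4 : (γ ^ (j - i)) ^ 2 = 1 := places_sq_eq_one_of_smul_eq (γ ^ (j - i)) w h3
  rw [← pow_mul] at h4
  have h5 : orderOf γ ∣ (j - i) * 2 := orderOf_dvd_of_pow_eq_one h4
  rw [hord] at h5
  have h6 : p - 1 ≤ (j - i) * 2 := Nat.le_of_dvd (by omega) h5
  omega

theorem places_bijective (hp3 : 3 ≤ p) (γ : K ≃ₐ[ℚ] K)
    (hγ : ∀ σ : K ≃ₐ[ℚ] K, σ ∈ Subgroup.zpowers γ) (w : InfinitePlace K) :
    Function.Bijective (fun i : Fin ((p - 1) / 2) ↦ (γ ^ (i : ℕ)) • w) := by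
  rw [Fintype.bijective_iff_injective_and_card]
  refine ⟨?_, ?_⟩
  · intro i j hij
    by_contra hne
    have hne' : (i : ℕ) ≠ (j : ℕ) := fun h ↦ hne (Fin.ext h)
    rcases Nat.lt_or_gt_of_ne hne' with hlt | hlt
    · exact places_ne_of_lt p K γ hγ w hlt j.isLt hij
    · exact places_ne_of_lt p K γ hγ w hlt i.isLt hij.symm
  · rw [Fintype.card_fin, card_infinitePlace p K hp3]

/-- `γ^m` (complex conjugation) fixes every infinite place. -/
theorem gal_pow_half_smul (hp3 : 3 ≤ p) (γ : K ≃ₐ[ℚ] K)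
    (hγ : ∀ σ : K ≃ₐ[ℚ] K, σ ∈ Subgroup.zpowers γ) (w : InfinitePlace K) :
    (γ ^ ((p - 1) / 2)) • w = w := by
  obtain ⟨i, hi⟩ := (places_bijective p K hp3 γ hγ w).surjective ((γ ^ ((p - 1) / 2)) • w)
  simp only at hi
  by_cases hi0 : (i : ℕ) = 0
  · rw [hi0, pow_zero, one_smul] at hi
    exact hi.symm
  · exfalso
    have hlt : (i : ℕ) < (p - 1) / 2 := i.isLt
    -- `γ^(m - i) • w = w = γ^0 • w`
    have hpow : γ ^ ((p - 1) / 2) = γ ^ (i : ℕ) * γ ^ ((p - 1) / 2 - (i : ℕ)) := by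
      rw [← pow_add]
      congr 1
      omega
    rw [hpow, mul_smul] at hi
    have h3 : w = (γ ^ ((p - 1) / 2 - (i : ℕ))) • w := smul_left_cancel (γ ^ (i : ℕ)) hi
    have h4 : (γ ^ 0) • w ≠ (γ ^ ((p - 1) / 2 - (i : ℕ))) • w :=
      places_ne_of_lt p K γ hγ w (by omega) (by omega)
    rw [pow_zero, one_smul] at h4
    exact h4 h3

/-- The product of the values of a unit at all infinite places of a totally complex field
is `1`. -/
theorem places_prod_unit_eq_one {L : Type*} [Field L] [NumberField L] [IsTotallyComplex L]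
    (e : (𝓞 L)ˣ) : ∏ w : InfinitePlace L, w ((e : 𝓞 L) : L) = 1 := by
  have h1 : ∏ w : InfinitePlace L, w ((e : 𝓞 L) : L) ^ InfinitePlace.mult w = 1 := by
    rw [InfinitePlace.prod_eq_abs_norm]
    have h0 : |Algebra.norm ℚ ((e : 𝓞 L) : L)| = 1 := NumberField.Units.norm L e
    rw [h0, Rat.cast_one]
  have h2 : (∏ w : InfinitePlace L, w ((e : 𝓞 L) : L)) ^ 2 = 1 := by
    rw [← Finset.prod_pow, ← h1]
    refine Finset.prod_congr rfl fun w _ ↦ ?_
    rw [IsTotallyComplex.mult_eq]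
  exact (pow_eq_one_iff_of_nonneg (Finset.prod_nonneg fun w _ ↦ apply_nonneg w _)
    two_ne_zero).mp h2

/-- The "half norm" `∏_{i<m} γ^i(e)` of a unit is a root of unity. -/
theorem norm_mem_torsion (hp3 : 3 ≤ p) (γ : K ≃ₐ[ℚ] K)
    (hγ : ∀ σ : K ≃ₐ[ℚ] K, σ ∈ Subgroup.zpowers γ) (e : (𝓞 K)ˣ) :
    ∏ i ∈ Finset.range ((p - 1) / 2), galU K (γ ^ i) e ∈ NumberField.Units.torsion K := by
  have : IsTotallyComplex K := IsCyclotomicExtension.Rat.isTotallyComplex (n := p) K (by omega)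
  have hγ' : ∀ σ : K ≃ₐ[ℚ] K, σ ∈ Subgroup.zpowers γ⁻¹ := by
    intro σ
    rw [Subgroup.zpowers_inv]
    exact hγ σ
  rw [NumberField.Units.mem_torsion]
  intro w
  have hbij := places_bijective p K hp3 γ⁻¹ hγ' w
  have hterm : ∀ i : ℕ, w ((galU K (γ ^ i) e : 𝓞 K) : K) = ((γ⁻¹ ^ i) • w) ((e : 𝓞 K) : K) := by
    intro i
    rw [coe_galU, InfinitePlace.smul_apply, inv_pow]
    rfl
  calc w ((∏ i ∈ Finset.range ((p - 1) / 2), galU K (γ ^ i) e : (𝓞 K)ˣ) : K)
      = ∏ i ∈ Finset.range ((p - 1) / 2), w ((galU K (γ ^ i) e : 𝓞 K) : K) := by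
        rw [← map_prod w]
        congr 1
        rw [Units.coe_prod]
        exact map_prod (algebraMap (𝓞 K) K) _ _
    _ = ∏ i ∈ Finset.range ((p - 1) / 2), ((γ⁻¹ ^ i) • w) ((e : 𝓞 K) : K) :=
        Finset.prod_congr rfl fun i _ ↦ hterm i
    _ = ∏ i : Fin ((p - 1) / 2), ((γ⁻¹ ^ (i : ℕ)) • w) ((e : 𝓞 K) : K) :=
        Finset.prod_range fun i ↦ ((γ⁻¹ ^ i) • w) ((e : 𝓞 K) : K)
    _ = ∏ w' : InfinitePlace K, w' ((e : 𝓞 K) : K) :=
        hbij.prod_comp fun w' : InfinitePlace K ↦ w' ((e : 𝓞 K) : K)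
    _ = 1 := places_prod_unit_eq_one e

end Fermat.Agent.S14.Thaine.Units
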