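import Fermat.Agent.S14.Thaine.Units.Defs

/-!
# Route T, block `Units`: the calculus modulo `π³` (`Rep`, `AB`)

Statements FROZEN by helper276 (replace each `sorry` only; add helper lemmas freely).
-/

set_option autoImplicit false

namespace Fermat.Agent.S14.Thaine.Units

open NumberField

variable (p : ℕ) [Fact p.Prime] (K : Type*) [Field K] [NumberField K]
  [IsCyclotomicExtension {p} ℚ K]

/-- `π = -(ζ - 1)` with `ζ` Mathlib's primitive root as an algebraic integer. -/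
theorem repAux_piInt_eq_neg :
    piInt p K = -((IsCyclotomicExtension.zeta_spec p ℚ K).toInteger - 1) := by
  unfold piInt zetaInt
  ring

/-- `π` is associated to `ζ - 1`. -/
theorem repAux_piInt_associated :
    Associated (piInt p K) ((IsCyclotomicExtension.zeta_spec p ℚ K).toInteger - 1) := by
  rw [repAux_piInt_eq_neg]
  exact (Associated.refl _).neg_left

/-- `π = 1 - ζ` divides the integer `n` iff `p ∣ n`. -/
theorem piInt_dvd_intCast_iff (n : ℤ) : piInt p K ∣ (n : 𝓞 K) ↔ (p : ℤ) ∣ n := by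
  rw [(repAux_piInt_associated p K).dvd_iff_dvd_left]
  exact IsCyclotomicExtension.Rat.zeta_sub_one_dvd_intCast_iff' p
    (IsCyclotomicExtension.zeta_spec p ℚ K)

/-- `π ^ (p - 1)` divides `p`. -/
theorem piInt_pow_dvd_p : piInt p K ^ (p - 1) ∣ ((p : ℕ) : 𝓞 K) :=
  ((repAux_piInt_associated p K).pow_pow.trans
    (IsCyclotomicExtension.Rat.associated_zeta_sub_one_pow_prime p
      (IsCyclotomicExtension.zeta_spec p ℚ K))).dvd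

theorem piInt_prime : Prime (piInt p K) :=
  (repAux_piInt_associated p K).symm.prime
    (IsCyclotomicExtension.zeta_spec p ℚ K).zeta_sub_one_prime'

theorem piInt_not_dvd_of_isUnit {x : 𝓞 K} (hx : IsUnit x) : ¬ piInt p K ∣ x :=
  fun h => (piInt_prime p K).not_isUnit (isUnit_of_dvd_unit h hx)

theorem Rep_intCast (n : ℤ) : Rep p K (n : 𝓞 K) n 0 0 := by
  unfold Rep
  have h0 : (n : 𝓞 K) - ((n : 𝓞 K) + ((0 : ℤ) : 𝓞 K) * piInt p K +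
      ((0 : ℤ) : 𝓞 K) * piInt p K ^ 2) = 0 := by
    push_cast
    ring
  rw [h0]
  exact Ideal.zero_mem _

theorem Rep_of_sub_mem {x y : 𝓞 K} {c₀ c₁ c₂ : ℤ} (h : x - y ∈ Ideal.span {piInt p K ^ 3})
    (hy : Rep p K y c₀ c₁ c₂) : Rep p K x c₀ c₁ c₂ := by
  unfold Rep at hy ⊢
  have h1 := Ideal.add_mem _ h hy
  have h2 : x - ((c₀ : 𝓞 K) + (c₁ : 𝓞 K) * piInt p K + (c₂ : 𝓞 K) * piInt p K ^ 2) =
      x - y + (y - ((c₀ : 𝓞 K) + (c₁ : 𝓞 K) * piInt p K + (c₂ : 𝓞 K) * piInt p K ^ 2)) := by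
    ring
  rw [h2]
  exact h1

theorem Rep_add {x y : 𝓞 K} {c₀ c₁ c₂ d₀ d₁ d₂ : ℤ} (hx : Rep p K x c₀ c₁ c₂)
    (hy : Rep p K y d₀ d₁ d₂) : Rep p K (x + y) (c₀ + d₀) (c₁ + d₁) (c₂ + d₂) := by
  unfold Rep at hx hy ⊢
  have h1 := Ideal.add_mem _ hx hy
  have h2 : x + y - (((c₀ + d₀ : ℤ) : 𝓞 K) + ((c₁ + d₁ : ℤ) : 𝓞 K) * piInt p K +
        ((c₂ + d₂ : ℤ) : 𝓞 K) * piInt p K ^ 2) =
      x - ((c₀ : 𝓞 K) + (c₁ : 𝓞 K) * piInt p K + (c₂ : 𝓞 K) * piInt p K ^ 2) +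
        (y - ((d₀ : 𝓞 K) + (d₁ : 𝓞 K) * piInt p K + (d₂ : 𝓞 K) * piInt p K ^ 2)) := by
    push_cast
    ring
  rw [h2]
  exact h1

theorem Rep_mul {x y : 𝓞 K} {c₀ c₁ c₂ d₀ d₁ d₂ : ℤ} (hx : Rep p K x c₀ c₁ c₂)
    (hy : Rep p K y d₀ d₁ d₂) :
    Rep p K (x * y) (c₀ * d₀) (c₀ * d₁ + c₁ * d₀) (c₀ * d₂ + c₁ * d₁ + c₂ * d₀) := by
  unfold Rep at hx hy ⊢
  rw [Ideal.mem_span_singleton] at hx hy ⊢
  obtain ⟨r, hr⟩ := hx
  obtain ⟨s, hs⟩ := hy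
  refine ⟨((c₁ : 𝓞 K) * (d₂ : 𝓞 K) + (c₂ : 𝓞 K) * (d₁ : 𝓞 K)) +
      (c₂ : 𝓞 K) * (d₂ : 𝓞 K) * piInt p K +
      ((c₀ : 𝓞 K) + (c₁ : 𝓞 K) * piInt p K + (c₂ : 𝓞 K) * piInt p K ^ 2) * s +
      r * ((d₀ : 𝓞 K) + (d₁ : 𝓞 K) * piInt p K + (d₂ : 𝓞 K) * piInt p K ^ 2) +
      piInt p K ^ 3 * r * s, ?_⟩
  push_cast
  linear_combination y * hr +
    ((c₀ : 𝓞 K) + (c₁ : 𝓞 K) * piInt p K + (c₂ : 𝓞 K) * piInt p K ^ 2 + piInt p K ^ 3 * r) * hs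

/-- `π³` divides every rational integer divisible by `p` (for `p ≥ 5`; `p ≥ 4` suffices). -/
theorem repAux_pow_three_dvd_intCast (hp5 : 5 ≤ p) {n : ℤ} (h : (p : ℤ) ∣ n) :
    piInt p K ^ 3 ∣ (n : 𝓞 K) := by
  obtain ⟨m, rfl⟩ := h
  have h1 : piInt p K ^ 3 ∣ piInt p K ^ (p - 1) := pow_dvd_pow _ (by omega)
  have h2 : piInt p K ^ 3 ∣ ((p : ℕ) : 𝓞 K) := h1.trans (piInt_pow_dvd_p p K)
  have h3 : (((p : ℤ) * m : ℤ) : 𝓞 K) = ((p : ℕ) : 𝓞 K) * (m : 𝓞 K) := by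
    push_cast
    ring
  rw [h3]
  exact Dvd.dvd.mul_right h2 _

/-- If `π³ ∣ e₀ + e₁ π + e₂ π²` with rational integers `e_i`, then `p` divides each `e_i`. -/
theorem repAux_unique (hp5 : 5 ≤ p) (e₀ e₁ e₂ : ℤ)
    (h : piInt p K ^ 3 ∣ (e₀ : 𝓞 K) + (e₁ : 𝓞 K) * piInt p K + (e₂ : 𝓞 K) * piInt p K ^ 2) :
    (p : ℤ) ∣ e₀ ∧ (p : ℤ) ∣ e₁ ∧ (p : ℤ) ∣ e₂ := by
  have hπ0 : piInt p K ≠ 0 := (piInt_prime p K).ne_zero
  -- step 0 : `p ∣ e₀`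
  have h0 : (p : ℤ) ∣ e₀ := by
    rw [← piInt_dvd_intCast_iff p K]
    have h1 : piInt p K ∣ (e₀ : 𝓞 K) + (e₁ : 𝓞 K) * piInt p K + (e₂ : 𝓞 K) * piInt p K ^ 2 :=
      (dvd_pow_self (piInt p K) (by norm_num)).trans h
    have h2 : piInt p K ∣ (e₁ : 𝓞 K) * piInt p K + (e₂ : 𝓞 K) * piInt p K ^ 2 :=
      ⟨(e₁ : 𝓞 K) + (e₂ : 𝓞 K) * piInt p K, by ring⟩
    have h3 := dvd_sub h1 h2
    have h4 : (e₀ : 𝓞 K) + (e₁ : 𝓞 K) * piInt p K + (e₂ : 𝓞 K) * piInt p K ^ 2 -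
        ((e₁ : 𝓞 K) * piInt p K + (e₂ : 𝓞 K) * piInt p K ^ 2) = (e₀ : 𝓞 K) := by ring
    rw [h4] at h3
    exact h3
  -- step 1 : `π² ∣ e₁ + e₂ π`
  have h0' : piInt p K ^ 3 ∣ (e₀ : 𝓞 K) := repAux_pow_three_dvd_intCast p K hp5 h0
  have hA : piInt p K ^ 2 ∣ (e₁ : 𝓞 K) + (e₂ : 𝓞 K) * piInt p K := by
    have h3 := dvd_sub h h0'
    have h4 : (e₀ : 𝓞 K) + (e₁ : 𝓞 K) * piInt p K + (e₂ : 𝓞 K) * piInt p K ^ 2 - (e₀ : 𝓞 K) =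
        piInt p K * ((e₁ : 𝓞 K) + (e₂ : 𝓞 K) * piInt p K) := by ring
    rw [h4, pow_succ', mul_dvd_mul_iff_left hπ0] at h3
    exact h3
  have h1 : (p : ℤ) ∣ e₁ := by
    rw [← piInt_dvd_intCast_iff p K]
    have h1 : piInt p K ∣ (e₁ : 𝓞 K) + (e₂ : 𝓞 K) * piInt p K :=
      (dvd_pow_self (piInt p K) (by norm_num)).trans hA
    have h2 : piInt p K ∣ (e₂ : 𝓞 K) * piInt p K := ⟨(e₂ : 𝓞 K), by ring⟩
    have h3 := dvd_sub h1 h2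
    have h4 : (e₁ : 𝓞 K) + (e₂ : 𝓞 K) * piInt p K - (e₂ : 𝓞 K) * piInt p K = (e₁ : 𝓞 K) := by
      ring
    rw [h4] at h3
    exact h3
  -- step 2 : `π ∣ e₂`
  have h1' : piInt p K ^ 2 ∣ (e₁ : 𝓞 K) :=
    (pow_dvd_pow (piInt p K) (by norm_num : 2 ≤ 3)).trans
      (repAux_pow_three_dvd_intCast p K hp5 h1)
  have h2 : (p : ℤ) ∣ e₂ := by
    rw [← piInt_dvd_intCast_iff p K]
    have h3 := dvd_sub hA h1'
    have h4 : (e₁ : 𝓞 K) + (e₂ : 𝓞 K) * piInt p K - (e₁ : 𝓞 K) =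
        piInt p K * (e₂ : 𝓞 K) := by ring
    rw [h4, pow_succ', pow_one, mul_dvd_mul_iff_left hπ0] at h3
    exact h3
  exact ⟨h0, h1, h2⟩

/-- Uniqueness of the coefficients modulo `p` (needs `π³ ∣ p`, i.e. `p ≥ 5`). -/
theorem Rep_unique (hp5 : 5 ≤ p) {x : 𝓞 K} {c₀ c₁ c₂ d₀ d₁ d₂ : ℤ} (h : Rep p K x c₀ c₁ c₂)
    (h' : Rep p K x d₀ d₁ d₂) :
    (c₀ : ZMod p) = (d₀ : ZMod p) ∧ (c₁ : ZMod p) = (d₁ : ZMod p) ∧
      (c₂ : ZMod p) = (d₂ : ZMod p) := by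
  unfold Rep at h h'
  rw [Ideal.mem_span_singleton] at h h'
  have h3 := dvd_sub h h'
  have h4 : x - ((c₀ : 𝓞 K) + (c₁ : 𝓞 K) * piInt p K + (c₂ : 𝓞 K) * piInt p K ^ 2) -
      (x - ((d₀ : 𝓞 K) + (d₁ : 𝓞 K) * piInt p K + (d₂ : 𝓞 K) * piInt p K ^ 2)) =
      ((d₀ - c₀ : ℤ) : 𝓞 K) + ((d₁ - c₁ : ℤ) : 𝓞 K) * piInt p K +
        ((d₂ - c₂ : ℤ) : 𝓞 K) * piInt p K ^ 2 := by
    push_cast
    ring
  rw [h4] at h3
  obtain ⟨k0, k1, k2⟩ := repAux_unique p K hp5 _ _ _ h3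
  exact ⟨(ZMod.intCast_eq_intCast_iff_dvd_sub _ _ _).mpr k0,
    (ZMod.intCast_eq_intCast_iff_dvd_sub _ _ _).mpr k1,
    (ZMod.intCast_eq_intCast_iff_dvd_sub _ _ _).mpr k2⟩

theorem AB_one : AB p K 1 0 0 := by
  refine ⟨1, 0, 0, ?_, ?_, ?_, ?_⟩
  · have h := Rep_intCast p K 1
    rw [Int.cast_one] at h
    exact h
  · rw [Int.cast_one]
    exact one_ne_zero
  · simp
  · simp

/-- `2 ≠ 0` in `ZMod p` for `p ≥ 5` (`p ≥ 3` suffices). -/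
theorem repAux_two_ne_zero (hp5 : 5 ≤ p) : (2 : ZMod p) ≠ 0 := by
  intro h
  have h' : ((2 : ℕ) : ZMod p) = 0 := by exact_mod_cast h
  rw [ZMod.natCast_eq_zero_iff] at h'
  have := Nat.le_of_dvd (by norm_num) h'
  omega

theorem AB_mul (hp5 : 5 ≤ p) {x y : 𝓞 K} {a b a' b' : ZMod p} (hx : AB p K x a b)
    (hy : AB p K y a' b') : AB p K (x * y) (a + a') (b + b') := by
  obtain ⟨c₀, c₁, c₂, hc, hc0, rfl, rfl⟩ := hx
  obtain ⟨d₀, d₁, d₂, hd, hd0, rfl, rfl⟩ := hy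
  have h2 : (2 : ZMod p) ≠ 0 := repAux_two_ne_zero p hp5
  refine ⟨_, _, _, Rep_mul p K hc hd, ?_, ?_, ?_⟩
  · push_cast
    exact mul_ne_zero hc0 hd0
  · push_cast
    field_simp
    ring
  · push_cast
    field_simp
    ring

theorem AB_pow (hp5 : 5 ≤ p) {x : 𝓞 K} {a b : ZMod p} (hx : AB p K x a b) (k : ℕ) :
    AB p K (x ^ k) ((k : ZMod p) * a) ((k : ZMod p) * b) := by
  induction k with
  | zero =>
    have h := AB_one p K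
    simpa using h
  | succ k ih =>
    have h := AB_mul p K hp5 ih hx
    have e1 : ((k + 1 : ℕ) : ZMod p) * a = (k : ZMod p) * a + a := by
      push_cast
      ring
    have e2 : ((k + 1 : ℕ) : ZMod p) * b = (k : ZMod p) * b + b := by
      push_cast
      ring
    rw [pow_succ, e1, e2]
    exact h

theorem AB_prod (hp5 : 5 ≤ p) {ι : Type*} (s : Finset ι) (x : ι → 𝓞 K) (a b : ι → ZMod p)
    (h : ∀ i ∈ s, AB p K (x i) (a i) (b i)) :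
    AB p K (∏ i ∈ s, x i) (∑ i ∈ s, a i) (∑ i ∈ s, b i) := by
  classical
  induction s using Finset.induction_on with
  | empty =>
    have h1 := AB_one p K
    simpa using h1
  | insert i s hi ih =>
    rw [Finset.prod_insert hi, Finset.sum_insert hi, Finset.sum_insert hi]
    exact AB_mul p K hp5 (h i (Finset.mem_insert_self i s))
      (ih fun j hj => h j (Finset.mem_insert_of_mem hj))

theorem AB_unique (hp5 : 5 ≤ p) {x : 𝓞 K} {a b a' b' : ZMod p} (h : AB p K x a b)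
    (h' : AB p K x a' b') : a = a' ∧ b = b' := by
  obtain ⟨c₀, c₁, c₂, hc, hc0, rfl, rfl⟩ := h
  obtain ⟨d₀, d₁, d₂, hd, hd0, rfl, rfl⟩ := h'
  obtain ⟨e0, e1, e2⟩ := Rep_unique p K hp5 hc hd
  rw [e0, e1, e2]
  exact ⟨rfl, rfl⟩

/-- A unit congruent to a rational integer modulo `π³` has invariants `(0, 0)`. -/
theorem AB_of_int (hp5 : 5 ≤ p) {x : 𝓞 K} (hx : IsUnit x) (n : ℤ)
    (h : x - (n : 𝓞 K) ∈ Ideal.span {piInt p K ^ 3}) : AB p K x 0 0 := by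
  have _hp5 := hp5
  refine ⟨n, 0, 0, Rep_of_sub_mem p K h (Rep_intCast p K n), ?_, ?_, ?_⟩
  · intro hn
    rw [ZMod.intCast_zmod_eq_zero_iff_dvd, ← piInt_dvd_intCast_iff p K] at hn
    rw [Ideal.mem_span_singleton] at h
    have h1 : piInt p K ∣ x - (n : 𝓞 K) := (dvd_pow_self (piInt p K) (by norm_num)).trans h
    have h2 := dvd_add h1 hn
    rw [sub_add_cancel] at h2
    exact piInt_not_dvd_of_isUnit p K hx h2
  · simp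
  · simp

end Fermat.Agent.S14.Thaine.Units
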