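import Fermat.Agent.S14.Thaine.Units.Rep

/-!
# Route T, block `Units`: `Rep`/`AB` of `ζ^i`, of `θ_j` and of `p`-th powers

Statements FROZEN by helper276 (replace each `sorry` only; add helper lemmas freely).
-/

set_option autoImplicit false

namespace Fermat.Agent.S14.Thaine.Units

open NumberField

variable (p : ℕ) [Fact p.Prime] (K : Type*) [Field K] [NumberField K]
  [IsCyclotomicExtension {p} ℚ K]

/-- Change the integer arguments of a `Rep` hypothesis. -/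
theorem repZeta_congr {x : 𝓞 K} {c₀ c₁ c₂ d₀ d₁ d₂ : ℤ} (h : Rep p K x c₀ c₁ c₂)
    (h₀ : c₀ = d₀) (h₁ : c₁ = d₁) (h₂ : c₂ = d₂) : Rep p K x d₀ d₁ d₂ := by
  subst h₀ h₁ h₂
  exact h

/-- `ζ = 1 - π`. -/
theorem repZeta_zeta : Rep p K (zetaInt p K) 1 (-1) 0 := by
  unfold Rep piInt
  have h0 : zetaInt p K - (((1 : ℤ) : 𝓞 K) + ((-1 : ℤ) : 𝓞 K) * (1 - zetaInt p K) +
      ((0 : ℤ) : 𝓞 K) * (1 - zetaInt p K) ^ 2) = 0 := by
    push_cast
    ring
  rw [h0]
  exact Ideal.zero_mem _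

/-- `2 * C(i,2) = i * (i - 1)` in `ℤ`. -/
theorem repZeta_two_mul_choose_two (i : ℕ) :
    (2 : ℤ) * ((i.choose 2 : ℕ) : ℤ) = (i : ℤ) * ((i : ℤ) - 1) := by
  induction i with
  | zero => simp
  | succ i ih =>
    rw [Nat.choose_succ_succ, Nat.choose_one_right]
    push_cast
    linarith

/-- `6 * C(i,3) = i * (i - 1) * (i - 2)` in `ℤ`. -/
theorem repZeta_six_mul_choose_three (i : ℕ) :
    (6 : ℤ) * ((i.choose 3 : ℕ) : ℤ) = (i : ℤ) * ((i : ℤ) - 1) * ((i : ℤ) - 2) := by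
  induction i with
  | zero => simp
  | succ i ih =>
    have h2 := repZeta_two_mul_choose_two i
    rw [Nat.choose_succ_succ]
    push_cast
    linear_combination 3 * h2 + ih

/-- `ζ^i = (1 - π)^i ≡ 1 - i π + C(i,2) π²`. -/
theorem Rep_zeta_pow (i : ℕ) :
    Rep p K (zetaInt p K ^ i) 1 (-(i : ℤ)) ((i.choose 2 : ℕ) : ℤ) := by
  induction i with
  | zero =>
    have h := Rep_intCast p K 1
    rw [Int.cast_one] at h
    rw [pow_zero]
    exact repZeta_congr p K h rfl (by simp) (by simp)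
  | succ i ih =>
    have h := Rep_mul p K ih (repZeta_zeta p K)
    rw [pow_succ]
    refine repZeta_congr p K h ?_ ?_ ?_
    · ring
    · push_cast
      ring
    · rw [Nat.choose_succ_succ, Nat.choose_one_right]
      push_cast
      ring

/-- `(n : ZMod p) ≠ 0` for `0 < n < p`. -/
theorem repZeta_natCast_ne_zero {n : ℕ} (hn : 0 < n) (hnp : n < p) : (n : ZMod p) ≠ 0 := by
  intro h
  rw [ZMod.natCast_eq_zero_iff] at h
  exact absurd (Nat.le_of_dvd hn h) (not_le.mpr hnp)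

theorem repZeta_two_ne_zero (hp5 : 5 ≤ p) : (2 : ZMod p) ≠ 0 := by
  have h := repZeta_natCast_ne_zero p (n := 2) (by norm_num) (by omega)
  exact_mod_cast h

theorem repZeta_three_ne_zero (hp5 : 5 ≤ p) : (3 : ZMod p) ≠ 0 := by
  have h := repZeta_natCast_ne_zero p (n := 3) (by norm_num) (by omega)
  exact_mod_cast h

/-- `2 * C(i,2) = i * (i - 1)` in `ZMod p`. -/
theorem repZeta_two_mul_choose_two_zmod (i : ℕ) :
    (2 : ZMod p) * ((i.choose 2 : ℕ) : ZMod p) = (i : ZMod p) * ((i : ZMod p) - 1) := by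
  have h := congrArg (Int.cast : ℤ → ZMod p) (repZeta_two_mul_choose_two i)
  push_cast at h
  exact h

/-- `6 * C(i,3) = i * (i - 1) * (i - 2)` in `ZMod p`. -/
theorem repZeta_six_mul_choose_three_zmod (i : ℕ) :
    (6 : ZMod p) * ((i.choose 3 : ℕ) : ZMod p) =
      (i : ZMod p) * ((i : ZMod p) - 1) * ((i : ZMod p) - 2) := by
  have h := congrArg (Int.cast : ℤ → ZMod p) (repZeta_six_mul_choose_three i)
  push_cast at h
  exact h

theorem AB_zeta_pow (hp5 : 5 ≤ p) (i : ℕ) :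
    AB p K (zetaInt p K ^ i) (-(i : ZMod p)) (-(i : ZMod p) / 2) := by
  have h2 : (2 : ZMod p) ≠ 0 := repZeta_two_ne_zero p hp5
  have hc := repZeta_two_mul_choose_two_zmod p i
  refine ⟨1, -(i : ℤ), ((i.choose 2 : ℕ) : ℤ), Rep_zeta_pow p K i, ?_, ?_, ?_⟩
  · rw [Int.cast_one]
    exact one_ne_zero
  · push_cast
    rw [div_one]
  · have hc' : ((i.choose 2 : ℕ) : ZMod p) = (i : ZMod p) * ((i : ZMod p) - 1) / 2 := by
      rw [eq_div_iff h2, mul_comm]
      exact hc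
    push_cast
    rw [div_one, div_one, hc']
    field_simp
    ring

/-- `θ_j = ∑_{i<j} ζ^i ≡ j - C(j,2) π + C(j,3) π²`. -/
theorem Rep_theta (j : ℕ) :
    Rep p K (theta p K j) (j : ℤ) (-((j.choose 2 : ℕ) : ℤ)) ((j.choose 3 : ℕ) : ℤ) := by
  induction j with
  | zero =>
    have h := Rep_intCast p K 0
    rw [Int.cast_zero] at h
    unfold theta
    rw [Finset.sum_range_zero]
    exact repZeta_congr p K h (by simp) (by simp) (by simp)
  | succ j ih =>
    have h := Rep_add p K ih (Rep_zeta_pow p K j)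
    unfold theta at h ⊢
    rw [Finset.sum_range_succ]
    refine repZeta_congr p K h ?_ ?_ ?_
    · push_cast
      ring
    · rw [Nat.choose_succ_succ, Nat.choose_one_right]
      push_cast
      ring
    · rw [Nat.choose_succ_succ j 2]
      push_cast
      ring

theorem AB_theta (hp5 : 5 ≤ p) (j : ℕ) (hj : 0 < j) (hjp : j < p) :
    AB p K (theta p K j) (-((j : ZMod p) - 1) / 2)
      (((j : ZMod p) - 1) * ((j : ZMod p) - 5) / 24) := by
  have h2 : (2 : ZMod p) ≠ 0 := repZeta_two_ne_zero p hp5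
  have h3 : (3 : ZMod p) ≠ 0 := repZeta_three_ne_zero p hp5
  have h6 : (6 : ZMod p) ≠ 0 := by
    have : (6 : ZMod p) = 2 * 3 := by norm_num
    rw [this]
    exact mul_ne_zero h2 h3
  have h24 : (24 : ZMod p) ≠ 0 := by
    have : (24 : ZMod p) = 2 * 2 * (2 * 3) := by norm_num
    rw [this]
    exact mul_ne_zero (mul_ne_zero h2 h2) (mul_ne_zero h2 h3)
  have hJ : (j : ZMod p) ≠ 0 := repZeta_natCast_ne_zero p hj hjp
  have hc2 : ((j.choose 2 : ℕ) : ZMod p) = (j : ZMod p) * ((j : ZMod p) - 1) / 2 := by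
    rw [eq_div_iff h2, mul_comm]
    exact repZeta_two_mul_choose_two_zmod p j
  have hc3 : ((j.choose 3 : ℕ) : ZMod p) =
      (j : ZMod p) * ((j : ZMod p) - 1) * ((j : ZMod p) - 2) / 6 := by
    rw [eq_div_iff h6, mul_comm]
    exact repZeta_six_mul_choose_three_zmod p j
  refine ⟨(j : ℤ), -((j.choose 2 : ℕ) : ℤ), ((j.choose 3 : ℕ) : ℤ), Rep_theta p K j, ?_, ?_, ?_⟩
  · rw [Int.cast_natCast]
    exact hJ
  · push_cast
    rw [hc2]
    field_simp
  · push_cast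
    rw [hc2, hc3]
    field_simp
    ring

/-- Every element of `𝓞 K` is congruent to a rational integer modulo `π`
(the residue field of `(π)` is `𝔽_p`). -/
theorem exists_int_sub_dvd (x : 𝓞 K) : ∃ n : ℤ, piInt p K ∣ x - (n : 𝓞 K) := by
  have hp : p.Prime := Fact.out
  obtain ⟨𝔭, h𝔭def⟩ : ∃ 𝔭 : Ideal (𝓞 K), 𝔭 = Ideal.span {piInt p K} := ⟨_, rfl⟩
  have hspan : 𝔭 = Ideal.span {(IsCyclotomicExtension.zeta_spec p ℚ K).toInteger - 1} := by
    rw [h𝔭def, ← Ideal.span_singleton_neg]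
    have hneg : -piInt p K = (IsCyclotomicExtension.zeta_spec p ℚ K).toInteger - 1 := by
      unfold piInt zetaInt
      ring
    rw [hneg]
  have h𝔭 : 𝔭.IsPrime := by
    rw [h𝔭def, Ideal.span_singleton_prime (piInt_prime p K).ne_zero]
    exact piInt_prime p K
  have hp𝔭 : ((p : ℕ) : 𝓞 K) ∈ 𝔭 := by
    rw [h𝔭def, Ideal.mem_span_singleton]
    have h1 : p - 1 ≠ 0 := by
      have := hp.two_le
      omega
    exact dvd_trans (dvd_pow_self _ h1) (piInt_pow_dvd_p p K)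
  have hcard : Nat.card (𝓞 K ⧸ 𝔭) = p := by
    rw [← Submodule.cardQuot_apply, ← Ideal.absNorm_apply, hspan]
    have hK : IsCyclotomicExtension {p ^ (0 + 1)} ℚ K := by
      rw [zero_add, pow_one]; infer_instance
    have hζ : IsPrimitiveRoot (IsCyclotomicExtension.zeta p ℚ K) (p ^ (0 + 1)) := by
      rw [zero_add, pow_one]; exact IsCyclotomicExtension.zeta_spec p ℚ K
    exact IsCyclotomicExtension.Rat.absNorm_span_zeta_sub_one p 0 hζ
  have : Finite (𝓞 K ⧸ 𝔭) := Nat.finite_of_card_ne_zero (by rw [hcard]; exact hp.ne_zero)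
  have : Nontrivial (𝓞 K ⧸ 𝔭) := Ideal.Quotient.nontrivial_iff.mpr h𝔭.ne_top
  have : CharP (𝓞 K ⧸ 𝔭) p := by
    rw [CharP.charP_iff_prime_eq_zero hp]
    have : ((p : 𝓞 K) : 𝓞 K ⧸ 𝔭) = 0 := Ideal.Quotient.eq_zero_iff_mem.mpr hp𝔭
    simpa using this
  have hinj : Function.Injective (ZMod.castHom (dvd_refl p) (𝓞 K ⧸ 𝔭)) :=
    RingHom.injective _
  have hbij := hinj.bijective_of_nat_card_le (by rw [hcard, Nat.card_zmod])
  obtain ⟨z, hz⟩ := hbij.2 (Ideal.Quotient.mk 𝔭 x)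
  obtain ⟨n, rfl⟩ := ZMod.intCast_surjective z
  refine ⟨n, ?_⟩
  rw [← Ideal.mem_span_singleton, ← h𝔭def, ← Ideal.Quotient.eq_zero_iff_mem, map_sub, ← hz]
  simp

/-- `w ≡ w₀ (mod π)` implies `w^p ≡ w₀^p (mod π^p)`, so `p`-th powers have invariants `(0, 0)`. -/
theorem AB_pow_p (hp5 : 5 ≤ p) (w : 𝓞 K) (hw : ¬ piInt p K ∣ w) : AB p K (w ^ p) 0 0 := by
  have hp : p.Prime := Fact.out
  obtain ⟨n, z, hz⟩ := exists_int_sub_dvd p K w
  have hw' : w = (n : 𝓞 K) + piInt p K * z := by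
    rw [← hz]
    ring
  obtain ⟨r, hr⟩ := exists_add_pow_prime_eq hp (n : 𝓞 K) (piInt p K * z)
  have hmem : w ^ p - ((n ^ p : ℤ) : 𝓞 K) ∈ Ideal.span {piInt p K ^ 3} := by
    rw [Ideal.mem_span_singleton]
    have e1 : w ^ p - ((n ^ p : ℤ) : 𝓞 K) =
        (piInt p K * z) ^ p + (p : 𝓞 K) * (n : 𝓞 K) * (piInt p K * z) * r := by
      rw [hw', hr]
      push_cast
      ring
    rw [e1]
    apply dvd_add
    · rw [mul_pow]
      exact Dvd.dvd.mul_right (pow_dvd_pow _ (by omega)) _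
    · have h2 : piInt p K ^ 2 ∣ ((p : ℕ) : 𝓞 K) :=
        dvd_trans (pow_dvd_pow _ (by omega)) (piInt_pow_dvd_p p K)
      obtain ⟨q, hq⟩ := h2
      refine ⟨q * (n : 𝓞 K) * z * r, ?_⟩
      rw [hq]
      ring
  have hrep : Rep p K (w ^ p) (n ^ p) 0 0 := Rep_of_sub_mem p K hmem (Rep_intCast p K (n ^ p))
  have hn : ((n ^ p : ℤ) : ZMod p) ≠ 0 := by
    intro h
    rw [ZMod.intCast_zmod_eq_zero_iff_dvd] at h
    have hpn : (p : ℤ) ∣ n := Int.Prime.dvd_pow' hp h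
    have hπn : piInt p K ∣ (n : 𝓞 K) := (piInt_dvd_intCast_iff p K n).mpr hpn
    apply hw
    rw [hw']
    exact dvd_add hπn (dvd_mul_right _ _)
  refine ⟨n ^ p, 0, 0, hrep, hn, ?_, ?_⟩
  · rw [Int.cast_zero, zero_div]
  · rw [Int.cast_zero, zero_div, zero_pow two_ne_zero, zero_div, sub_zero]

end Fermat.Agent.S14.Thaine.Units
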