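import Fermat.Agent.S14.Thaine.Units.RepZeta

/-!
# Route T, block `Units`: `u = π^E u'`, `p ∣ E`, `u'` is a unit with invariants `(0, -1/24)`

Statements FROZEN by helper276; all proofs complete (helper lemmas `uPrime_sum_*` added).
-/

set_option autoImplicit false

namespace Fermat.Agent.S14.Thaine.Units

open NumberField

variable (p : ℕ) [Fact p.Prime] (K : Type*) [Field K] [NumberField K]
  [IsCyclotomicExtension {p} ℚ K]

theorem piInt_mul_theta (j : ℕ) : piInt p K * theta p K j = 1 - zetaInt p K ^ j := by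
  unfold piInt theta
  exact mul_neg_geom_sum _ _

theorem thaineU_eq : thaineU p K = piInt p K ^ expSum p * uPrime p K := by
  unfold thaineU uPrime expSum
  rw [← Finset.prod_pow_eq_pow_sum, ← Finset.prod_mul_distrib]
  refine Finset.prod_congr rfl (fun j _ => ?_)
  rw [← mul_pow, piInt_mul_theta]

/-- Reindexing: a sum over `0 < j < p` of a function of `(j : ZMod p)` vanishing at `0` is the
sum over all of `ZMod p`. -/
theorem uPrime_sum_Ioo_eq_sum_univ (f : ZMod p → ZMod p) (hf : f 0 = 0) :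
    ∑ j ∈ Finset.Ioo 0 p, f (j : ZMod p) = ∑ x : ZMod p, f x := by
  have hp : p.Prime := Fact.out
  have : NeZero p := ⟨hp.ne_zero⟩
  rw [← Finset.sum_erase Finset.univ hf]
  refine Finset.sum_nbij' (fun j : ℕ => (j : ZMod p)) (fun x : ZMod p => x.val) ?_ ?_ ?_ ?_ ?_
  · intro j hj
    rw [Finset.mem_Ioo] at hj
    simp only [Finset.mem_erase, Finset.mem_univ, and_true]
    intro h
    rw [ZMod.natCast_eq_zero_iff] at h
    exact absurd (Nat.le_of_dvd hj.1 h) (not_le.mpr hj.2)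
  · intro x hx
    simp only [Finset.mem_erase, Finset.mem_univ, and_true] at hx
    rw [Finset.mem_Ioo]
    exact ⟨Nat.pos_of_ne_zero (fun h => hx ((ZMod.val_eq_zero x).mp h)), ZMod.val_lt x⟩
  · intro j hj
    rw [Finset.mem_Ioo] at hj
    show ((j : ZMod p)).val = j
    rw [ZMod.val_natCast, Nat.mod_eq_of_lt hj.2]
  · intro x _
    show ((x.val : ℕ) : ZMod p) = x
    exact ZMod.natCast_zmod_val x
  · intro j _
    rfl

/-- The power sums `∑_{0<j<p} j^i` vanish in `ZMod p` for `0 < i < p - 1`. -/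
theorem uPrime_sum_pow_eq_zero (i : ℕ) (hi : 0 < i) (hip : i < p - 1) :
    ∑ j ∈ Finset.Ioo 0 p, ((j : ZMod p)) ^ i = 0 := by
  rw [uPrime_sum_Ioo_eq_sum_univ p (fun x => x ^ i) (zero_pow hi.ne')]
  apply FiniteField.sum_pow_lt_card_sub_one
  rw [ZMod.card]
  exact hip

/-- The power sum `∑_{0<j<p} j^(p-1)` is `-1` in `ZMod p`. -/
theorem uPrime_sum_pow_pred :
    ∑ j ∈ Finset.Ioo 0 p, ((j : ZMod p)) ^ (p - 1) = -1 := by
  have hp : p.Prime := Fact.out
  have h1 : ∀ j ∈ Finset.Ioo 0 p, ((j : ZMod p)) ^ (p - 1) = 1 := by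
    intro j hj
    rw [Finset.mem_Ioo] at hj
    apply ZMod.pow_card_sub_one_eq_one
    intro h
    rw [ZMod.natCast_eq_zero_iff] at h
    exact absurd (Nat.le_of_dvd hj.1 h) (not_le.mpr hj.2)
  rw [Finset.sum_congr rfl h1, Finset.sum_const, Nat.card_Ioo, nsmul_eq_mul, mul_one,
    Nat.sub_zero, Nat.cast_sub hp.one_le, ZMod.natCast_self, Nat.cast_one, zero_sub]

theorem p_dvd_expSum (hp5 : 5 ≤ p) : p ∣ expSum p := by
  have hp : p.Prime := Fact.out
  have : NeZero p := ⟨hp.ne_zero⟩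
  rw [← ZMod.natCast_eq_zero_iff]
  unfold expSum
  rw [Nat.cast_sum]
  have h1 : ∀ j ∈ Finset.Ioo 0 p,
      (((((j : ZMod p)) ^ (p - 3)).val : ℕ) : ZMod p) = ((j : ZMod p)) ^ (p - 3) := by
    intro j _
    exact ZMod.natCast_zmod_val _
  rw [Finset.sum_congr rfl h1]
  exact uPrime_sum_pow_eq_zero p (p - 3) (by omega) (by omega)

theorem isUnit_theta (j : ℕ) (hj : 0 < j) (hjp : j < p) : IsUnit (theta p K j) := by
  have hp : p.Prime := Fact.out
  have hζ : IsPrimitiveRoot (zetaInt p K) p :=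
    (IsCyclotomicExtension.zeta_spec p ℚ K).toInteger_isPrimitiveRoot
  unfold theta
  refine hζ.geom_sum_isUnit hp.two_le ?_
  exact ((Nat.Prime.coprime_iff_not_dvd hp).mpr (Nat.not_dvd_of_pos_of_lt hj hjp)).symm

theorem isUnit_uPrime : IsUnit (uPrime p K) := by
  unfold uPrime
  refine Finset.prod_induction _ IsUnit (fun a b ha hb => ha.mul hb) isUnit_one ?_
  intro j hj
  rw [Finset.mem_Ioo] at hj
  exact (isUnit_theta p K j hj.1 hj.2).pow _

theorem AB_uPrime (hp5 : 5 ≤ p) : AB p K (uPrime p K) 0 (-1 / 24) := by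
  have hp : p.Prime := Fact.out
  have : NeZero p := ⟨hp.ne_zero⟩
  have h := AB_prod p K hp5 (Finset.Ioo 0 p)
    (fun j => theta p K j ^ (((j : ZMod p)) ^ (p - 3)).val)
    (fun j => ((((j : ZMod p)) ^ (p - 3)).val : ZMod p) * (-((j : ZMod p) - 1) / 2))
    (fun j => ((((j : ZMod p)) ^ (p - 3)).val : ZMod p) *
      (((j : ZMod p) - 1) * ((j : ZMod p) - 5) / 24))
    (fun j hj => by
      rw [Finset.mem_Ioo] at hj
      exact AB_pow p K hp5 (AB_theta p K hp5 j hj.1 hj.2) _)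
  have hS3 := uPrime_sum_pow_eq_zero p (p - 3) (by omega) (by omega)
  have hS2 := uPrime_sum_pow_eq_zero p (p - 2) (by omega) (by omega)
  have hS1 := uPrime_sum_pow_pred p
  have ha : ∑ j ∈ Finset.Ioo 0 p,
      ((((j : ZMod p)) ^ (p - 3)).val : ZMod p) * (-((j : ZMod p) - 1) / 2) = 0 := by
    have h1 : ∀ j ∈ Finset.Ioo 0 p,
        ((((j : ZMod p)) ^ (p - 3)).val : ZMod p) * (-((j : ZMod p) - 1) / 2)
          = (-(1 / 2 : ZMod p)) * ((j : ZMod p)) ^ (p - 2)
            + (1 / 2 : ZMod p) * ((j : ZMod p)) ^ (p - 3) := by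
      intro j _
      rw [ZMod.natCast_zmod_val]
      have h2 : ((j : ZMod p)) ^ (p - 2) = ((j : ZMod p)) ^ (p - 3) * (j : ZMod p) := by
        rw [← pow_succ]
        congr 1
        omega
      rw [h2]
      ring
    rw [Finset.sum_congr rfl h1, Finset.sum_add_distrib, ← Finset.mul_sum, ← Finset.mul_sum,
      hS2, hS3]
    ring
  have hb : ∑ j ∈ Finset.Ioo 0 p,
      ((((j : ZMod p)) ^ (p - 3)).val : ZMod p) *
        (((j : ZMod p) - 1) * ((j : ZMod p) - 5) / 24) = -1 / 24 := by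
    have h1 : ∀ j ∈ Finset.Ioo 0 p,
        ((((j : ZMod p)) ^ (p - 3)).val : ZMod p) *
          (((j : ZMod p) - 1) * ((j : ZMod p) - 5) / 24)
          = (1 / 24 : ZMod p) * ((j : ZMod p)) ^ (p - 1)
            + ((-(6 / 24 : ZMod p)) * ((j : ZMod p)) ^ (p - 2)
            + (5 / 24 : ZMod p) * ((j : ZMod p)) ^ (p - 3)) := by
      intro j _
      rw [ZMod.natCast_zmod_val]
      have h2 : ((j : ZMod p)) ^ (p - 2) = ((j : ZMod p)) ^ (p - 3) * (j : ZMod p) := by
        rw [← pow_succ]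
        congr 1
        omega
      have h3 : ((j : ZMod p)) ^ (p - 1) =
          ((j : ZMod p)) ^ (p - 3) * (j : ZMod p) * (j : ZMod p) := by
        rw [← pow_succ, ← pow_succ]
        congr 1
        omega
      rw [h2, h3]
      ring
    rw [Finset.sum_congr rfl h1, Finset.sum_add_distrib, Finset.sum_add_distrib,
      ← Finset.mul_sum, ← Finset.mul_sum, ← Finset.mul_sum, hS1, hS2, hS3]
    ring
  rw [ha, hb] at h
  exact h

end Fermat.Agent.S14.Thaine.Units
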